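import Fermat.Agent.RT.Modules.Hecke

/-!
# Corestriction on the localised modules

The localised module modulo the maximal ideal of `O[Δ]` is the localisation of `Hom(Γ₀(L), O)`
modulo the uniformiser.
-/

set_option autoImplicit false

noncomputable section

namespace Fermat.Agent.RT.Modules

open IsLocalRing MvPolynomial
open Fermat.Agent.RT.GammaH

section Aug

variable {O : Type*} [CommRing O] [IsLocalRing O] {Δ : Type*} [CommGroup Δ] {N : Type*}
    [AddCommGroup N] [Module O N]

/-- The maximal ideal of `O[Δ]` times the module. -/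
def augSub (dia : Δ →* Module.End O N) : Submodule O N :=
  maximalIdeal O • ⊤ ⊔ ⨆ δ, LinearMap.range (dia δ - 1)

end Aug

variable {O : Type} [CommRing O] [IsDomain O] [IsDiscreteValuationRing O]
  [IsAdicComplete (maximalIdeal O) O] [Finite (ResidueField O)] [CharZero O] {L : ℕ} [NeZero L]
  {Δ : Type} [CommGroup Δ] [Finite Δ] {p : ℕ} [Fact p.Prime] [CharP (ResidueField O) p]
  {ψ : (ZMod L)ˣ →* Δ} {S : Finset ℕ} {abar : ℕ → ResidueField O}

variable (S abar ψ) in
/-- Corestriction to `Γ₀(L)` on the localised modules. -/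
def coresLoc :
    locHom S abar ψ.ker →ₗ[O] locHom S abar (⊤ : Subgroup (ZMod L)ˣ) :=
  letI := Fintype.ofFinite ((ZMod L)ˣ ⧸ ψ.ker)
  (((coresLin S ψ.ker O).restrictScalars O).comp (locHom S abar ψ.ker).subtype).codRestrict _
    fun x => by
      rw [locHom_eq (isLocalizer_locOp_top S abar ψ.ker), mem_localPart]
      show locOp S abar ψ.ker • coresLin S ψ.ker O (x : HomMod O S ψ.ker O) = _
      rw [← map_smul, show locOp S abar ψ.ker • (x : HomMod O S ψ.ker O) = x from x.2]
      rfl

omit [Finite (ResidueField O)] [CharZero O] in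
/-- `coresLoc` is the restriction of the corestriction `coresLin` to the localised module. -/
theorem coe_coresLoc [Fintype ((ZMod L)ˣ ⧸ ψ.ker)] (x : locHom S abar ψ.ker) :
    (coresLoc ψ S abar x : HomMod O S (⊤ : Subgroup (ZMod L)ˣ) O) =
      coresLin S ψ.ker O (x : HomMod O S ψ.ker O) := by
  show @coresLin O _ L S ψ.ker O _ _ (Fintype.ofFinite _) _ = _
  congr!

namespace Hyp

variable (h : Hyp p ψ S abar)

omit [Finite (ResidueField O)] [CharZero O] in
omit [Fact (Nat.Prime p)] [CharP (ResidueField O) p] in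
theorem coresLoc_dia (δ : Δ) (x : locHom S abar ψ.ker) :
    coresLoc ψ S abar (h.dia δ x) = coresLoc ψ S abar x := by
  let := Fintype.ofFinite ((ZMod L)ˣ ⧸ ψ.ker)
  refine Subtype.ext ?_
  rw [coe_coresLoc, coe_coresLoc]
  show coresLin S ψ.ker O ((X (Sum.inl (psiInv h.surjective δ)) : OpRing O L S) •
    (x : HomMod O S ψ.ker O)) = _
  rw [map_smul, X_inl_smul]
  exact diamond_top O _ _

omit [Finite (ResidueField O)] in
include h in
theorem coresLoc_surjective : Function.Surjective (coresLoc ψ S abar) := fun y => by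
  let := Fintype.ofFinite ((ZMod L)ˣ ⧸ ψ.ker)
  have : IsAddTorsionFree O := by infer_instance
  obtain ⟨x, hx⟩ := (isCoreps_deltaRep (K := ψ.ker)).cores_surjective_of_torsionFree (R := O)
    (isUnit_two (O := O) (p := p) h.ne_two) (neg_one_mem_gammaH h.neg_one_mem)
    ((y : HomMod O S (⊤ : Subgroup (ZMod L)ˣ) O))
  set e := locOp S abar ψ.ker
  refine ⟨⟨e • (toHomMod x : HomMod O S ψ.ker O),
    (isLocalizer_locOp S abar ψ.ker).smul_self_mem _⟩, Subtype.ext ?_⟩
  rw [coe_coresLoc]
  show coresLin S ψ.ker O (e • _) = _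
  rw [map_smul, show coresLin S ψ.ker O (toHomMod x : HomMod O S ψ.ker O) = y from hx]
  exact mem_localPart.1 ((locHom_eq (isLocalizer_locOp_top S abar ψ.ker)).le y.2)

omit [Fact (Nat.Prime p)] [CharP (ResidueField O) p] [Finite (ResidueField O)] [CharZero O] in
theorem coresLoc_mem_of_mem_augSub {x : locHom S abar ψ.ker} (hx : x ∈ augSub h.dia) :
    coresLoc ψ S abar x ∈
      maximalIdeal O • (⊤ : Submodule O (locHom S abar (⊤ : Subgroup (ZMod L)ˣ))) := by
  suffices augSub h.dia ≤ (maximalIdeal O • ⊤ :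
      Submodule O (locHom S abar (⊤ : Subgroup (ZMod L)ˣ))).comap (coresLoc ψ S abar) from this hx
  refine sup_le (Submodule.smul_le.2 fun r hr z _ => ?_) (iSup_le fun δ => ?_)
  · rw [Submodule.mem_comap, map_smul]
    exact Submodule.smul_mem_smul hr Submodule.mem_top
  · rintro _ ⟨z, rfl⟩
    rw [Submodule.mem_comap, LinearMap.sub_apply, map_sub, Module.End.one_apply, h.coresLoc_dia,
      sub_self]
    exact zero_mem _

/-- A splitting of corestriction: a map from a free module which is bijective onto the module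
below and complements the augmentation, which corestriction kills. -/
theorem exists_coresLoc_splitting :
    ∃ g : (Fin (Module.finrank O (locHom S abar (⊤ : Subgroup (ZMod L)ˣ))) → O) →ₗ[O]
        locHom S abar ψ.ker,
      Function.Bijective (coresLoc ψ S abar ∘ₗ g) ∧
      (∀ z ∈ ⨆ δ, LinearMap.range (h.dia δ - 1), coresLoc ψ S abar z = 0) ∧
      ∀ z, z ∈ LinearMap.range g ⊔ ⨆ δ, LinearMap.range (h.dia δ - 1) := by
  classical
  set N₀ := locHom S abar (⊤ : Subgroup (ZMod L)ˣ)
  set C := coresLoc ψ S abar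
  obtain ⟨b, hb⟩ := h.exists_basis
  let A : Submodule O (locHom S abar ψ.ker) := ⨆ δ, LinearMap.range (h.dia δ - 1)
  let g := Fintype.linearCombination O b
  have hA : ∀ z ∈ A, C z = 0 := by
    intro z hz
    refine LinearMap.mem_ker.1 ((iSup_le fun δ => ?_ : A ≤ LinearMap.ker C) hz)
    rintro _ ⟨w, rfl⟩
    rw [LinearMap.mem_ker, LinearMap.sub_apply, map_sub, Module.End.one_apply, h.coresLoc_dia,
      sub_self]
  have hdec : ∀ z : locHom S abar ψ.ker, z ∈ LinearMap.range g ⊔ A := fun z => by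
    obtain ⟨c, rfl⟩ := hb.2 z
    refine Submodule.sum_mem _ fun iq _ => Submodule.smul_mem _ _ ?_
    rw [← sub_add_cancel (h.dia iq.2 (b iq.1)) (b iq.1)]
    refine add_mem (Submodule.mem_sup_right (Submodule.mem_iSup_of_mem iq.2 ⟨b iq.1, rfl⟩))
      (Submodule.mem_sup_left ⟨Pi.single iq.1 1, ?_⟩)
    simp [g, Fintype.linearCombination_apply_single]
  have hsurj : Function.Surjective (C ∘ₗ g) := fun y => by
    obtain ⟨z, rfl⟩ := h.coresLoc_surjective y
    obtain ⟨_, ⟨r, rfl⟩, a, ha, rfl⟩ := Submodule.mem_sup.1 (hdec z)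
    exact ⟨r, by rw [map_add, hA a ha, add_zero]; rfl⟩
  let E : N₀ ≃ₗ[O] (Fin (Module.finrank O N₀) → O) := (Module.finBasis O N₀).equivFun
  have hinj : Function.Injective (C ∘ₗ g) := by
    have := OrzechProperty.injective_of_surjective_endomorphism (E.toLinearMap ∘ₗ C ∘ₗ g)
      (E.surjective.comp hsurj)
    exact Function.Injective.of_comp (f := ⇑E) this
  exact ⟨g, ⟨hinj, hsurj⟩, hA, hdec⟩

theorem mem_augSub_of_coresLoc {x : locHom S abar ψ.ker}
    (hx : coresLoc ψ S abar x ∈
      maximalIdeal O • (⊤ : Submodule O (locHom S abar (⊤ : Subgroup (ZMod L)ˣ)))) :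
    x ∈ augSub h.dia := by
  classical
  set N₀ := locHom S abar (⊤ : Subgroup (ZMod L)ˣ) with hN₀
  set C := coresLoc ψ S abar with hC
  obtain ⟨g, ⟨hinj, hsurj⟩, hA, hdec⟩ := h.exists_coresLoc_splitting
  obtain ⟨_, ⟨r, rfl⟩, a, ha, rfl⟩ := Submodule.mem_sup.1 (hdec x)
  refine add_mem ?_ (Submodule.mem_sup_right ha)
  refine Submodule.mem_sup_left ?_
  rw [map_add, hA a ha, add_zero] at hx
  have hr : r ∈ maximalIdeal O • (⊤ : Submodule O (Fin (Module.finrank O N₀) → O)) := by
    have htop : Submodule.map (C ∘ₗ g) (maximalIdeal O • ⊤) = maximalIdeal O • ⊤ := by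
      rw [Submodule.map_smul'', Submodule.map_top, LinearMap.range_eq_top.2 hsurj]
    obtain ⟨s, hs, hsr⟩ := (htop.symm ▸ hx : C (g r) ∈ _)
    exact hinj hsr ▸ hs
  have := Submodule.mem_map_of_mem (f := g) hr
  rw [Submodule.map_smul''] at this
  exact Submodule.smul_mono le_rfl le_top this

end Hyp

end Fermat.Agent.RT.Modules
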