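import Fermat.Agent.RT.Ihara.Local
import Fermat.Agent.RT.Modules.Cores

/-!
# Degeneracy maps between the localised modules of level `M` and `M q`

`deg` and `degStar` are equivariant for the operators away from `S`, with composite
`(q + 1, T; T, q + 1)` for the symmetrised `T = symEnd`. Given an auxiliary prime for Ihara's
lemma, modulo the maximal ideal of `O[Δ]` the first is injective and the second surjective.
-/

set_option autoImplicit false

noncomputable section

namespace Fermat.Agent.RT.Modules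

open IsLocalRing MvPolynomial
open Fermat.Agent.RT.GammaH Fermat.Agent.RT.Ihara
open Fermat.Agent.LevelRaising (RaiseData AuxPrime)

variable {M q : ℕ} {Δ : Type} [CommGroup Δ]

/-- The character at level `M q`. -/
abbrev upPsi (ψ : (ZMod M)ˣ →* Δ) (q : ℕ) : (ZMod (M * q))ˣ →* Δ :=
  ψ.comp (ZMod.unitsMap (dvd_mul_right M q))

variable {O : Type} [CommRing O] [IsDomain O] [IsDiscreteValuationRing O]
  [IsAdicComplete (maximalIdeal O) O] [Finite (ResidueField O)] [CharZero O] [NeZero M]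
  [NeZero (M * q)] [Finite Δ] {p : ℕ} [Fact p.Prime] [CharP (ResidueField O) p]
  {ψ : (ZMod M)ˣ →* Δ} {S : Finset ℕ} {abar : ℕ → ResidueField O}

omit [IsAdicComplete (maximalIdeal O) O] [Finite (ResidueField O)] [CharZero O] [NeZero M]
  [Finite Δ] [Fact (Nat.Prime p)] [CharP (ResidueField O) p] in
/-- The hypotheses at level `M q`. -/
theorem Hyp.raise (h : Hyp p ψ S abar) (hq : RaiseData q M) (hqS : q ∈ S) :
    Hyp p (upPsi ψ q) S abar where
  ne_two := h.ne_two
  isPGroup := h.isPGroup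
  surjective := h.surjective.comp (ZMod.unitsMap_surjective (dvd_mul_right M q))
  squarefree := (Nat.squarefree_mul
    ((Nat.Prime.coprime_iff_not_dvd hq.prime).2 hq.not_dvd).symm).2
      ⟨h.squarefree, hq.prime.squarefree⟩
  mem_of_dvd v hv hd := ((Nat.Prime.dvd_mul hv).1 hd).elim (h.mem_of_dvd v hv) fun hd => by
    rwa [(Nat.prime_dvd_prime_iff_eq hv hq.prime).1 hd]
  nonEis := h.nonEis
  ell := h.ell

omit [IsAdicComplete (maximalIdeal O) O] [Finite (ResidueField O)] [CharZero O] [NeZero M]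
  [CharP (ResidueField O) p] in
omit [NeZero (M * q)] in
theorem Hyp.qUnit_pow_mem (h : Hyp p ψ S abar) (hq : RaiseData q M) :
    qUnit hq ^ (2 * halfInvExp Δ + 1) ∈ ψ.ker := by
  rw [MonoidHom.mem_ker, map_pow, pow_succ, mul_comm 2, pow_mul]
  exact pow_halfInvExp_sq_mul h.odd_card _

variable (hq : RaiseData q M) (hqS : q ∈ S)

section Maps

variable (S abar ψ)

/-- The two copies of level `M` into level `M q`. -/
def deg : (locHom S abar ψ.ker × locHom S abar ψ.ker) →ₗ[O] locHom S abar (upPsi ψ q).ker :=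
  ((degH O S hq ψ.ker (halfInvExp Δ)).comp
    ((locHom S abar ψ.ker).subtype.prodMap (locHom S abar ψ.ker).subtype)).codRestrict _ fun u => by
    obtain ⟨e, he, he₀⟩ := exists_isLocalizer_pair (M := M) (q := q) S ψ.ker (abar := abar)
    exact (locHom_eq he).ge (degH_mem_localPart hq hqS _
      ((locHom_eq he₀).le u.1.2) ((locHom_eq he₀).le u.2.2))

/-- The transpose of `deg`. -/
def degStar : locHom S abar (upPsi ψ q).ker →ₗ[O] (locHom S abar ψ.ker × locHom S abar ψ.ker) :=
  (((LinearMap.fst O _ _).comp ((degStarH O S hq ψ.ker (halfInvExp Δ)).comp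
      (locHom S abar (upPsi ψ q).ker).subtype)).codRestrict (locHom S abar ψ.ker) fun x => by
    obtain ⟨e, he, he₀⟩ := exists_isLocalizer_pair (M := M) (q := q) S ψ.ker (abar := abar)
    exact (locHom_eq he₀).ge (degStarH_mem_localPart hq hqS (halfInvExp Δ)
      ((locHom_eq he).le x.2)).1).prod
  (((LinearMap.snd O _ _).comp ((degStarH O S hq ψ.ker (halfInvExp Δ)).comp
      (locHom S abar (upPsi ψ q).ker).subtype)).codRestrict (locHom S abar ψ.ker) fun x => by
    obtain ⟨e, he, he₀⟩ := exists_isLocalizer_pair (M := M) (q := q) S ψ.ker (abar := abar)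
    exact (locHom_eq he₀).ge (degStarH_mem_localPart hq hqS (halfInvExp Δ)
      ((locHom_eq he).le x.2)).2)

/-- `⟨q⟩ ^ e T_q` on `Hom(Γ_H, O)` over the operators. -/
def symHom : HomMod O S ψ.ker O →ₗ[OpRing O M S] HomMod O S ψ.ker O :=
  haveI : Fact q.Prime := ⟨hq.prime⟩
  upgrade (((toHomMod (O := O) (S := S) (K := ψ.ker) (A := O)).toLinearMap.comp
      (symT hq O ψ.ker (halfInvExp Δ))).comp
    (toHomMod (O := O) (S := S) (K := ψ.ker) (A := O)).symm.toLinearMap) fun i φ => by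
    rcases i with u | ℓ
    · rw [X_inl_smul, X_inl_smul]
      show diamond M _ O _ (hecke M _ q O (diamond M _ O u φ)) =
        diamond M _ O u (diamond M _ O _ (hecke M _ q O φ))
      rw [hecke_diamond, ← diamond_mul, ← diamond_mul, mul_comm]
    · have : Fact ℓ.1.Prime := ⟨ℓ.2.1⟩
      rw [X_inr_smul, X_inr_smul]
      show diamond M _ O _ (hecke M _ q O (hecke M _ ℓ.1 O φ)) =
        hecke M _ ℓ.1 O (diamond M _ O _ (hecke M _ q O φ))
      rw [hecke_diamond, hecke_comm]

/-- `⟨q⟩ ^ e T_q` on the localised module. -/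
def symEnd : Module.End O (locHom S abar ψ.ker) :=
  (((symHom ψ S hq).restrictScalars O).comp (locHom S abar ψ.ker).subtype).codRestrict _ fun x => by
    show locOp S abar ψ.ker • symHom ψ S hq (x : HomMod O S ψ.ker O) = _
    rw [← map_smul, show locOp S abar ψ.ker • (x : HomMod O S ψ.ker O) = x from x.2]
    rfl

end Maps

variable {hq hqS}

omit [Finite (ResidueField O)] [CharZero O] [Finite Δ] in
/-- `deg` is equivariant for the operators. -/
theorem deg_locAct (a : OpRing O (M * q) S) (u : locHom S abar ψ.ker × locHom S abar ψ.ker) :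
    deg ψ S abar hq hqS
      (locAct S abar ψ.ker (lowerOp O M q S a) u.1, locAct S abar ψ.ker (lowerOp O M q S a) u.2) =
      locAct S abar (upPsi ψ q).ker a (deg ψ S abar hq hqS u) :=
  Subtype.ext (degH_smul hq hqS _ a ((u.1 : HomMod O S ψ.ker O), (u.2 : HomMod O S ψ.ker O)))

omit [Finite (ResidueField O)] [CharZero O] [Finite Δ] in
/-- `degStar` is equivariant for the operators. -/
theorem degStar_locAct (a : OpRing O (M * q) S) (x : locHom S abar (upPsi ψ q).ker) :
    degStar ψ S abar hq hqS (locAct S abar (upPsi ψ q).ker a x) =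
      (locAct S abar ψ.ker (lowerOp O M q S a) (degStar ψ S abar hq hqS x).1,
        locAct S abar ψ.ker (lowerOp O M q S a) (degStar ψ S abar hq hqS x).2) := by
  have e := degStarH_smul (K := ψ.ker) (A := O) hq hqS (halfInvExp Δ) a x.1
  exact Prod.ext (Subtype.ext (congrArg Prod.fst e)) (Subtype.ext (congrArg Prod.snd e))

omit [IsDomain O] [IsDiscreteValuationRing O] [IsAdicComplete (maximalIdeal O) O]
  [Finite (ResidueField O)] [CharZero O] [NeZero M] [NeZero (M * q)] in
/-- Lowering the level sends `T_ℓ` to `T_ℓ`. -/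
theorem lowerOp_tOp {ℓ : ℕ} (hℓ : ℓ.Prime) (hℓS : ℓ ∉ S) :
    lowerOp O M q S (tOp O (M * q) S ℓ) = tOp O M S ℓ := by
  rw [tOp_eq hℓ hℓS, tOp_eq hℓ hℓS, lowerOp, rename_X]
  rfl

omit [Finite (ResidueField O)] [CharZero O] [Finite Δ] [Fact (Nat.Prime p)]
  [CharP (ResidueField O) p] in
/-- A diamond operator at both levels comes from one operator of level `M q`. -/
theorem dia_raise (h : Hyp p ψ S abar) (δ : Δ) :
    ∃ a : OpRing O (M * q) S, (h.raise hq hqS).dia δ = locAct S abar (upPsi ψ q).ker a ∧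
      h.dia δ = locAct S abar ψ.ker (lowerOp O M q S a) := by
  refine ⟨X (Sum.inl (psiInv (h.raise hq hqS).surjective δ)), rfl, ?_⟩
  rw [lowerOp, rename_X, Sum.map_inl, ← h.dia_psi]
  exact congrArg h.dia (Function.surjInv_eq (h.raise hq hqS).surjective δ).symm

omit [Finite (ResidueField O)] [CharZero O] [Finite Δ] [Fact (Nat.Prime p)]
    [CharP (ResidueField O) p] in
/-- `deg` commutes with the diamond operators. -/
theorem deg_dia (h : Hyp p ψ S abar) (δ : Δ) (u : locHom S abar ψ.ker × locHom S abar ψ.ker) :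
    deg ψ S abar hq hqS (h.dia δ u.1, h.dia δ u.2) =
      (h.raise hq hqS).dia δ (deg ψ S abar hq hqS u) := by
  obtain ⟨a, ha, ha₀⟩ := dia_raise (hq := hq) (hqS := hqS) h δ
  rw [ha, ha₀]
  exact deg_locAct a u

omit [Finite (ResidueField O)] [CharZero O] [Finite Δ] [Fact (Nat.Prime p)]
    [CharP (ResidueField O) p] in
/-- `degStar` commutes with the diamond operators. -/
theorem degStar_dia (h : Hyp p ψ S abar) (δ : Δ) (x : locHom S abar (upPsi ψ q).ker) :
    degStar ψ S abar hq hqS ((h.raise hq hqS).dia δ x) =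
      (h.dia δ (degStar ψ S abar hq hqS x).1, h.dia δ (degStar ψ S abar hq hqS x).2) := by
  obtain ⟨a, ha, ha₀⟩ := dia_raise (hq := hq) (hqS := hqS) h δ
  rw [ha, ha₀, degStar_locAct]

omit [Finite (ResidueField O)] [CharZero O] [CharP (ResidueField O) p] in
/-- The composite of `deg` and `degStar` is the matrix `(q + 1, T; T, q + 1)`, `T = symEnd`. -/
theorem degStar_deg (h : Hyp p ψ S abar) (u : locHom S abar ψ.ker × locHom S abar ψ.ker) :
    degStar ψ S abar hq hqS (deg ψ S abar hq hqS u) =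
      ((q + 1) • u.1 + symEnd ψ S abar hq u.2, symEnd ψ S abar hq u.1 + (q + 1) • u.2) := by
  have : Fact q.Prime := ⟨hq.prime⟩
  have e := degStar_degMap hq O (K := ψ.ker) (h.qUnit_pow_mem hq)
    ((u.1 : HomMod O S ψ.ker O), (u.2 : HomMod O S ψ.ker O))
  exact Prod.ext (Subtype.ext (congrArg Prod.fst e)) (Subtype.ext (congrArg Prod.snd e))

section Mod

variable {ℓ : ℕ} (a : AuxPrime q M ℓ) (hℓS : ℓ ∉ S)
  (hℓ : abar ℓ ≠ 1 + (ℓ : ResidueField O))

omit [IsAdicComplete (maximalIdeal O) O] [Finite (ResidueField O)] [CharZero O] in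
/-- A member of `m N` is divisible by the uniformiser. -/
theorem exists_smul_of_mem {X : Type*} [AddCommGroup X] [Module O X] {ϖ : O} (hϖ : Irreducible ϖ)
    {x : X} (hx : x ∈ maximalIdeal O • (⊤ : Submodule O X)) : ∃ y, ϖ • y = x := by
  rw [hϖ.maximalIdeal_eq, Submodule.ideal_span_singleton_smul] at hx
  obtain ⟨y, -, hy⟩ := (Submodule.mem_smul_pointwise_iff_exists x ϖ ⊤).1 hx
  exact ⟨y, hy⟩

include a hℓS hℓ in
/-- **Ihara's lemma**: `deg` is injective modulo the maximal ideal of `O[Δ]`. -/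
theorem mem_augSub_of_deg (h : Hyp p ψ S abar) {u : locHom S abar ψ.ker × locHom S abar ψ.ker}
    (hu : deg ψ S abar hq hqS u ∈ augSub (h.raise hq hqS).dia) :
    u.1 ∈ augSub h.dia ∧ u.2 ∈ augSub h.dia := by
  let := Fintype.ofFinite ((ZMod M)ˣ ⧸ ψ.ker)
  let := Fintype.ofFinite ((ZMod (M * q))ˣ ⧸ (upPsi ψ q).ker)
  let : Fintype ((ZMod (M * q))ˣ ⧸ liftSub q ψ.ker) := Fintype.ofFinite _
  obtain ⟨ϖ, hϖ⟩ := IsDiscreteValuationRing.exists_irreducible O
  obtain ⟨y, hy⟩ := exists_smul_of_mem hϖ ((h.raise hq hqS).coresLoc_mem_of_mem_augSub hu)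
  obtain ⟨e, he, he₀⟩ := exists_isLocalizer_pair (M := M) (q := q) S (⊤ : Subgroup (ZMod M)ˣ)
    (abar := abar)
  set φ : HomMod O S (⊤ : Subgroup (ZMod M)ˣ) O × HomMod O S (⊤ : Subgroup (ZMod M)ˣ) O :=
    ((coresLoc ψ S abar u.1 : HomMod O S (⊤ : Subgroup (ZMod M)ˣ) O),
      (coresLoc ψ S abar u.2 : HomMod O S (⊤ : Subgroup (ZMod M)ˣ) O)) with hφ
  have h0 : degH O S hq ⊤ (halfInvExp Δ) φ =
      ϖ • y.1 := by
    refine (Eq.trans ?_ (congrArg Subtype.val hy).symm)
    rw [hφ, coe_coresLoc, coe_coresLoc, coe_coresLoc]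
    exact (coresTop_degMap hq O (K := ψ.ker) (halfInvExp Δ)
      ((u.1 : HomMod O S ψ.ker O), (u.2 : HomMod O S ψ.ker O))).symm.trans (by
        unfold coresTop; congr!)
  obtain ⟨χ, h1, h2, hχ⟩ := exists_eq_smul_of_degH hq a Fact.out h.ne_two hℓS hℓ hϖ he₀ _
    ((locHom_eq he₀).le (coresLoc ψ S abar u.1).2) ((locHom_eq he₀).le (coresLoc ψ S abar u.2).2) h0
  constructor
  · refine h.mem_augSub_of_coresLoc ?_
    rw [show coresLoc ψ S abar u.1 = ϖ • ⟨χ.1, (locHom_eq he₀).ge h1⟩ from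
      Subtype.ext (congrArg Prod.fst hχ)]
    exact Submodule.smul_mem_smul (hϖ.maximalIdeal_eq ▸ Ideal.mem_span_singleton_self ϖ) trivial
  · refine h.mem_augSub_of_coresLoc ?_
    rw [show coresLoc ψ S abar u.2 = ϖ • ⟨χ.2, (locHom_eq he₀).ge h2⟩ from
      Subtype.ext (congrArg Prod.snd hχ)]
    exact Submodule.smul_mem_smul (hϖ.maximalIdeal_eq ▸ Ideal.mem_span_singleton_self ϖ) trivial

include a hℓS hℓ in
/-- **Ihara's lemma**: `degStar` is surjective modulo the maximal ideal of `O[Δ]`. -/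
theorem exists_degStar_sub_mem (h : Hyp p ψ S abar)
    (w : locHom S abar ψ.ker × locHom S abar ψ.ker) :
    ∃ x, (degStar ψ S abar hq hqS x).1 - w.1 ∈ augSub h.dia ∧
      (degStar ψ S abar hq hqS x).2 - w.2 ∈ augSub h.dia := by
  let := Fintype.ofFinite ((ZMod M)ˣ ⧸ ψ.ker)
  let := Fintype.ofFinite ((ZMod (M * q))ˣ ⧸ (upPsi ψ q).ker)
  let : Fintype ((ZMod (M * q))ˣ ⧸ liftSub q ψ.ker) := Fintype.ofFinite _
  obtain ⟨ϖ, hϖ⟩ := IsDiscreteValuationRing.exists_irreducible O
  obtain ⟨e, he, he₀⟩ := exists_isLocalizer_pair (M := M) (q := q) S (⊤ : Subgroup (ZMod M)ˣ)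
    (abar := abar)
  obtain ⟨z, hz, χ, h1, h2, hχ⟩ := exists_degStarH_sub_eq_smul hq a Fact.out h.ne_two hℓS hℓ hϖ hqS
    he he₀ (halfInvExp Δ) (w := ((coresLoc ψ S abar w.1 : HomMod O S (⊤ : Subgroup (ZMod M)ˣ) O),
      (coresLoc ψ S abar w.2 : HomMod O S (⊤ : Subgroup (ZMod M)ˣ) O)))
    ((locHom_eq he₀).le (coresLoc ψ S abar w.1).2) ((locHom_eq he₀).le (coresLoc ψ S abar w.2).2)
  obtain ⟨x, hx⟩ := (h.raise hq hqS).coresLoc_surjective ⟨z, (locHom_eq he).ge hz⟩
  have key := degStar_coresTop hq O (K := ψ.ker) (halfInvExp Δ)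
    x.1
  have hz' : degStarH O S hq ⊤ (halfInvExp Δ) z =
      ((coresLoc ψ S abar (degStar ψ S abar hq hqS x).1 : HomMod O S (⊤ : Subgroup (ZMod M)ˣ) O),
        (coresLoc ψ S abar (degStar ψ S abar hq hqS x).2 :
          HomMod O S (⊤ : Subgroup (ZMod M)ˣ) O)) := by
    rw [show z = (coresLoc (upPsi ψ q) S abar x).1 from (congrArg Subtype.val hx).symm,
      coe_coresLoc, coe_coresLoc, coe_coresLoc]
    refine Eq.trans ?_ key
    show degStarH O S hq ⊤ (halfInvExp Δ) _ = degStarH O S hq ⊤ (halfInvExp Δ) _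
    refine congrArg _ ?_
    unfold coresLin upgrade coresTop
    congr!
  rw [hz'] at hχ
  refine ⟨x, h.mem_augSub_of_coresLoc ?_, h.mem_augSub_of_coresLoc ?_⟩
  · rw [map_sub, show coresLoc ψ S abar (degStar ψ S abar hq hqS x).1 - coresLoc ψ S abar w.1 =
      ϖ • ⟨χ.1, (locHom_eq he₀).ge h1⟩ from Subtype.ext (congrArg Prod.fst hχ)]
    exact Submodule.smul_mem_smul (hϖ.maximalIdeal_eq ▸ Ideal.mem_span_singleton_self ϖ) trivial
  · rw [map_sub, show coresLoc ψ S abar (degStar ψ S abar hq hqS x).2 - coresLoc ψ S abar w.2 =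
      ϖ • ⟨χ.2, (locHom_eq he₀).ge h2⟩ from Subtype.ext (congrArg Prod.snd hχ)]
    exact Submodule.smul_mem_smul (hϖ.maximalIdeal_eq ▸ Ideal.mem_span_singleton_self ϖ) trivial

end Mod

end Fermat.Agent.RT.Modules
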