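import Fermat.Agent.RT.GammaH.EigenVector

/-!
# A system where an operator does not vanish

`exists_system_of_ne`: for squarefree level, `-1 ∈ K` and odd index, an operator nonzero on a
stable space of parabolic classes is nonzero at the system of an eigenclass there. It is used in
`RT/Modules/NewPart`.
-/

set_option autoImplicit false

noncomputable section

namespace Fermat.Agent.RT.GammaH

open MvPolynomial ModularCurve.Period

variable {O : Type} [CommRing O] [Algebra O ℂ] {L : ℕ} [NeZero L] {S : Finset ℕ}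
  {K : Subgroup (ZMod L)ˣ}

/-- An operator nonzero on a stable space of parabolic classes is nonzero at the system of an
eigenclass in that space. -/
theorem exists_system_of_ne (hneg : -1 ∈ K) (hL : Squarefree L)
    (hodd : Odd (Nat.card ((ZMod L)ˣ ⧸ K))) (hS : ∀ v : ℕ, v.Prime → v ∣ L → v ∈ S)
    (V : Submodule ℂ (HomC K)) (hpar : ∀ φ ∈ V, φ ∈ parabolicHoms ℂ (gammaH L K) ℂ)
    (hstab : ∀ b : OpRing O L S, ∀ φ ∈ V, opC O S K b φ ∈ V) (a : OpRing O L S) {φ₀ : HomC K}
    (hφ₀ : φ₀ ∈ V) (h0 : opC O S K a φ₀ ≠ 0) :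
    ∃ (θ : OpRing O L S →ₐ[O] ℂ) (χ : (ZMod L)ˣ →* ℂˣ) (φ : HomC K),
      φ ∈ V ∧ φ ≠ 0 ∧ θ a ≠ 0 ∧ (∀ b, opC O S K b φ = θ b • φ) ∧
      (∀ u ∈ K, χ u = 1) ∧ (∀ u, (χ u : ℂ) = θ (X (Sum.inl u))) ∧
      ∀ u, diamond L K ℂ u φ = (χ u : ℂ) • φ := by
  have : FiniteDimensional ℂ (HomC K) := by
    obtain ⟨n, γ, hγ⟩ := exists_coords (K := K)
    exact FiniteDimensional.of_injective
      ({ toFun := fun φ i => φ (γ i), map_add' := fun _ _ => rfl, map_smul' := fun _ _ => rfl } :
        HomC K →ₗ[ℂ] (Fin n → ℂ)) fun φ φ' h => hγ ℂ φ φ' (congrFun h)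
  have hW : Submodule.map (opC O S K a) V ≠ ⊥ :=
    (Submodule.ne_bot_iff _).2 ⟨_, Submodule.mem_map_of_mem hφ₀, h0⟩
  -- an eigenclass in the image of `a`
  obtain ⟨θ', φ, hφW, hφ0, heig⟩ := HeckeDuality.exists_eigenCharacter (opC O S K)
    (Submodule.map (opC O S K a) V) hW fun b w hw => by
      obtain ⟨y, hy, rfl⟩ := hw
      exact ⟨opC O S K b y, hstab b y hy, by
        rw [← Module.End.mul_apply, ← map_mul, mul_comm a b, map_mul, Module.End.mul_apply]⟩
  obtain ⟨y, hy, rfl⟩ := hφW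
  let θ : OpRing O L S →ₐ[O] ℂ :=
    { θ' with
      commutes' := fun c => smul_left_injective ℂ hφ0 (by
        show θ' (C c) • _ = algebraMap O ℂ c • _
        rw [← heig (C c), opC_C, Module.algebraMap_end_apply]) }
  have hker : ∀ {u : (ZMod L)ˣ}, u ∈ K → θ' (X (Sum.inl u)) = 1 := fun {u} hu => by
    refine smul_left_injective ℂ hφ0 ?_
    show θ' _ • _ = (1 : ℂ) • _
    rw [← heig, opC_inl, one_smul, diamond_of_mem ℂ hu]
  have hmul : ∀ u w : (ZMod L)ˣ,
      θ' (X (Sum.inl (u * w))) = θ' (X (Sum.inl u)) * θ' (X (Sum.inl w)) := fun u w => by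
    refine smul_left_injective ℂ hφ0 ?_
    show θ' _ • _ = (θ' _ * θ' _) • _
    rw [← heig, opC_inl, diamond_mul, ← opC_inl (O := O) (S := S) w, heig, map_smul,
      ← opC_inl (O := O) (S := S) u, heig, smul_smul]
    exact congrArg (· • _) (mul_comm _ _)
  -- the diamonds act by a character
  let χ : (ZMod L)ˣ →* ℂˣ := MonoidHom.toHomUnits
    { toFun := fun u => θ' (X (Sum.inl u))
      map_one' := hker (one_mem _)
      map_mul' := hmul }
  refine ⟨θ, χ, _, hstab a y hy, hφ0, fun ha => hφ0 ?_, heig, fun u hu => Units.ext (hker hu),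
    fun u => rfl, fun u => ?_⟩
  -- `θ a ≠ 0`, since `a` is semisimple
  · have h2 : (opPar (O := O) (S := S) hneg a ^ 2) ⟨y, hpar y hy⟩ = 0 := by
      refine Subtype.ext ?_
      rw [sq, Module.End.mul_apply, coe_opPar, coe_opPar]
      show opC O S K a (opC O S K a y) = 0
      rw [heig a, show θ' a = 0 from ha, zero_smul]
    exact congrArg Subtype.val
      (eq_zero_of_pow_apply (opPar_isSemisimple hneg hL hodd hS a) h2)
  · rw [← opC_inl (O := O) (S := S), heig]
    rfl

end Fermat.Agent.RT.GammaH
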