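import Fermat.Agent.RT.GammaH.NewAt
import Fermat.Agent.RT.Modules.Degen
import Fermat.Agent.RT.Modules.System

/-!
# The kernel of `degStar` is new at `q`

An element of the Hecke algebra of level `M q` vanishing at every system with a newform of level
divisible exactly once by `q` kills the kernel of `degStar`.
-/

set_option autoImplicit false

noncomputable section

namespace Fermat.Agent.RT.Modules

open IsLocalRing MvPolynomial CongruenceSubgroup ModularFormClass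
open ModularCurve.Period
open Fermat.Agent.RT.GammaH Fermat.Agent.RT.Ihara
open Fermat.Agent.LevelRaising (RaiseData)

variable {M q : ℕ} {Δ : Type} [CommGroup Δ] {O : Type} [CommRing O] [IsDomain O]
  [IsDiscreteValuationRing O] [IsAdicComplete (maximalIdeal O) O] [Finite (ResidueField O)]
  [CharZero O] [NeZero M] [NeZero (M * q)] [Finite Δ] {p : ℕ} [Fact p.Prime]
  [CharP (ResidueField O) p] {ψ : (ZMod M)ˣ →* Δ} {S : Finset ℕ} {abar : ℕ → ResidueField O}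
  {hq : RaiseData q M} {hqS : q ∈ S}

/-- A system of the operators killing their kernel on the localisation is a character of the
Hecke algebra. -/
theorem Hyp.exists_algebraHom {L : ℕ} [NeZero L] {ψ : (ZMod L)ˣ →* Δ} (h : Hyp p ψ S abar)
    [Algebra O ℂ] (θ' : OpRing O L S →ₐ[O] ℂ) (hθ : ∀ b, locAct S abar ψ.ker b = 0 → θ' b = 0) :
    ∃ θ : (heckeModule h).algebra →+* ℂ,
      (∀ b, θ ⟨locAct S abar ψ.ker b, h.locAct_mem b⟩ = θ' b) ∧
      ∀ c, θ (algebraMap O _ c) = algebraMap O ℂ c := by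
  let F : OpRing O L S →+* (heckeModule h).algebra :=
    ((locAct S abar ψ.ker).codRestrict _ h.locAct_mem).toRingHom
  have hF : Function.Surjective F := fun z => by
    obtain ⟨b, hb⟩ : ∃ b, locAct S abar ψ.ker b = z.1 :=
      (h.adjoin_eq_range ▸ z.2 : z.1 ∈ (locAct S abar ψ.ker).range)
    exact ⟨b, Subtype.ext hb⟩
  refine ⟨F.liftOfRightInverse _ (Function.rightInverse_surjInv hF) ⟨θ'.toRingHom, fun b hb =>
      hθ b (congrArg Subtype.val (RingHom.mem_ker.1 hb))⟩,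
    fun b => RingHom.liftOfRightInverse_comp_apply F _ _ _ b, fun c => ?_⟩
  rw [show algebraMap O (heckeModule h).algebra c = F (algebraMap O _ c) from
    Subtype.ext (AlgHom.commutes (locAct S abar ψ.ker) c).symm]
  exact (RingHom.liftOfRightInverse_comp_apply F _ _ _ _).trans (θ'.commutes c)

omit [IsDomain O] [IsDiscreteValuationRing O] [IsAdicComplete (maximalIdeal O) O]
    [Finite (ResidueField O)] [CharZero O] [NeZero M] [NeZero (M * q)] [Finite Δ] in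
/-- The Hecke operators preserve the classes killed by both traces. -/
private theorem traces_opC_eq_zero (hqS : q ∈ S) [Algebra O ℂ] (b : OpRing O (M * q) S) :
    ∀ φ : HomC (liftSub q ψ.ker), corDeg hq ℂ ψ.ker φ = 0 → starDeg hq ℂ ψ.ker φ = 0 →
      corDeg hq ℂ ψ.ker (opC O S (liftSub q ψ.ker) b φ) = 0 ∧
        starDeg hq ℂ ψ.ker (opC O S (liftSub q ψ.ker) b φ) = 0 := by
  induction b using MvPolynomial.induction_on with
  | C c =>
    intro φ h1 h2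
    rw [opC_C, Module.algebraMap_end_apply, map_smul, map_smul, h1, h2]
    exact ⟨smul_zero _, smul_zero _⟩
  | add b b' hb hb' =>
    intro φ h1 h2
    rw [map_add, LinearMap.add_apply, map_add, map_add, (hb φ h1 h2).1, (hb φ h1 h2).2,
      (hb' φ h1 h2).1, (hb' φ h1 h2).2, add_zero]
    exact ⟨rfl, rfl⟩
  | mul_X b i hb =>
    intro φ h1 h2
    rw [map_mul, Module.End.mul_apply]
    rcases i with u | ℓ
    · rw [opC_inl]
      exact hb _ (by rw [corDeg_diamond hq ℂ u, h1, map_zero])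
        (by rw [starDeg_diamond hq ℂ u, h2, map_zero])
    · have : Fact ℓ.1.Prime := ⟨ℓ.2.1⟩
      rw [opC_inr]
      exact hb _ (by rw [corDeg_hecke hq ℂ (fun hc : ℓ.1 = q => ℓ.2.2 (hc ▸ hqS)), h1, map_zero])
        (by rw [starDeg_hecke hq ℂ (fun hc : ℓ.1 = q => ℓ.2.2 (hc ▸ hqS)), h2, map_zero])

/-- A class in the kernel of `degStar` is killed by both traces over `ℂ`. -/
private theorem traces_toHomC_eq_zero [Algebra O ℂ] (h : Hyp p ψ S abar)
    {x : (heckeModule (h.raise hq hqS)).M} (hx : degStar ψ S abar hq hqS x = 0) :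
    corDeg hq ℂ ψ.ker (toHomC (x.1 : HomMod O S (liftSub q ψ.ker) O)) = 0 ∧
      starDeg hq ℂ ψ.ker (toHomC (x.1 : HomMod O S (liftSub q ψ.ker) O)) = 0 := by
  set x₀ : HomMod O S (liftSub q ψ.ker) O := x.1
  have hc0 : corDeg hq O ψ.ker x₀ = 0 := congrArg (fun z => ((z : _ × _).1).1) hx
  have hs0 : starDeg hq O ψ.ker x₀ = 0 := by
    have h2 : diamond M ψ.ker O (qUnit hq ^ halfInvExp Δ) (starDeg hq O ψ.ker x₀) = 0 :=
      congrArg (fun z => ((z : _ × _).2).1) hx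
    have h3 := congrArg (diamond M ψ.ker O (qUnit hq ^ halfInvExp Δ)⁻¹) h2
    rwa [← diamond_mul, inv_mul_cancel, diamond_of_mem O (one_mem _), map_zero] at h3
  constructor
  · refine (opOf_comp_coeff (R := O) (S := ℂ) _
      (algebraMap O ℂ).toAddMonoidHom (toHomMod.symm x₀)).trans ?_
    rw [show opOf _ O (toHomMod.symm x₀) = (0 : Additive (gammaH M ψ.ker) →+ O) from hc0]
    exact AddMonoidHom.comp_zero _
  · refine (opOf_comp_coeff (R := O) (S := ℂ) _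
      (algebraMap O ℂ).toAddMonoidHom (toHomMod.symm x₀)).trans ?_
    rw [show opOf _ O (toHomMod.symm x₀) = (0 : Additive (gammaH M ψ.ker) →+ O) from hs0]
    exact AddMonoidHom.comp_zero _

variable (ψ S abar hq) in
/-- The parabolic classes in `P₁` killed by both traces and by the annihilator of the
localisation. -/
private def newSpace [Algebra O ℂ] (P₁ : Submodule ℂ (HomC (liftSub q ψ.ker))) :
    Submodule ℂ (HomC (liftSub q ψ.ker)) where
  carrier := {φ | φ ∈ P₁ ∧ φ ∈ parabolicHoms ℂ (gammaH (M * q) (liftSub q ψ.ker)) ℂ ∧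
    corDeg hq ℂ ψ.ker φ = 0 ∧ starDeg hq ℂ ψ.ker φ = 0 ∧
    ∀ b, locAct S abar (upPsi ψ q).ker b = 0 → opC O S (liftSub q ψ.ker) b φ = 0}
  zero_mem' := ⟨zero_mem _, zero_mem _, map_zero _, map_zero _, fun b _ => map_zero _⟩
  add_mem' {y z} hy hz := ⟨add_mem hy.1 hz.1, add_mem hy.2.1 hz.2.1,
    by rw [map_add, hy.2.2.1, hz.2.2.1, add_zero],
    by rw [map_add, hy.2.2.2.1, hz.2.2.2.1, add_zero],
    fun b hb => by rw [map_add, hy.2.2.2.2 b hb, hz.2.2.2.2 b hb, add_zero]⟩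
  smul_mem' c y hy := ⟨Submodule.smul_mem _ c hy.1, Submodule.smul_mem _ c hy.2.1,
    by rw [map_smul, hy.2.2.1, smul_zero], by rw [map_smul, hy.2.2.2.1, smul_zero],
    fun b hb => by rw [map_smul, hy.2.2.2.2 b hb, smul_zero]⟩

/-- An eigenclass killed by both traces at a system where `a` does not vanish, in a prescribed
stable space. -/
theorem exists_system_new [Algebra O ℂ] (hinj : Function.Injective (algebraMap O ℂ))
    (h : Hyp p ψ S abar) (a : (heckeModule (h.raise hq hqS)).algebra)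
    {x : (heckeModule (h.raise hq hqS)).M} (hx : degStar ψ S abar hq hqS x = 0)
    (hne : (a : Module.End O (heckeModule (h.raise hq hqS)).M) x ≠ 0)
    (P₁ : Submodule ℂ (HomC (liftSub q ψ.ker)))
    (hP₁ : ∀ b : OpRing O (M * q) S, ∀ φ ∈ P₁, opC O S (liftSub q ψ.ker) b φ ∈ P₁)
    (hxP : toHomC (x.1 : HomMod O S (liftSub q ψ.ker) O) ∈ P₁) :
    ∃ (θ : (heckeModule (h.raise hq hqS)).algebra →+* ℂ) (χ : (ZMod (M * q))ˣ →* ℂˣ)
      (φ : HomC (liftSub q ψ.ker)), θ a ≠ 0 ∧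
      (∀ c, θ (algebraMap O _ c) = algebraMap O ℂ c) ∧
      φ ∈ parabolicHoms ℂ (gammaH (M * q) (liftSub q ψ.ker)) ℂ ∧ φ ≠ 0 ∧ φ ∈ P₁ ∧
      (∀ u ∈ liftSub q ψ.ker, χ u = 1) ∧
      (∀ u, diamond (M * q) (liftSub q ψ.ker) ℂ u φ = (χ u : ℂ) • φ) ∧
      (∀ u, (χ u : ℂ) = θ ⟨(heckeModule (h.raise hq hqS)).dia (upPsi ψ q u),
        Algebra.subset_adjoin (Or.inl ⟨_, rfl⟩)⟩) ∧
      (∀ (ℓ : ℕ) [hℓ : Fact ℓ.Prime] (hℓS : ℓ ∉ S), hecke (M * q) (liftSub q ψ.ker) ℓ ℂ φ =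
        θ ⟨(heckeModule (h.raise hq hqS)).T ℓ,
          Algebra.subset_adjoin (Or.inr ⟨ℓ, ⟨hℓ.out, hℓS⟩, rfl⟩)⟩ • φ) ∧
      corDeg hq ℂ ψ.ker φ = 0 ∧ starDeg hq ℂ ψ.ker φ = 0 := by
  classical
  let K' : Subgroup (ZMod (M * q))ˣ := liftSub q ψ.ker
  have h' := h.raise hq hqS
  have hneg : -1 ∈ K' := h'.neg_one_mem
  have hodd : Odd (Nat.card ((ZMod (M * q))ˣ ⧸ K')) := by
    have := h'.card_quotient
    rw [show Nat.card ((ZMod (M * q))ˣ ⧸ K') = Nat.card Δ from this]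
    exact h'.odd_card
  obtain ⟨ℓ₀, hℓ₀, hℓ₀S, hℓ₀E⟩ := h.nonEis
  obtain ⟨P, hP, hpar⟩ := exists_parabolicOp (K := (upPsi ψ q).ker) S abar h'.squarefree
    h'.neg_one_mem hℓ₀ hℓ₀S (fun hc => hℓ₀S (h'.mem_of_dvd ℓ₀ hℓ₀ hc)) hℓ₀E
  obtain ⟨a₀, ha₀⟩ : ∃ a₀, locAct S abar (upPsi ψ q).ker a₀ = a.1 :=
    ((h.raise hq hqS).adjoin_eq_range ▸ a.2 : a.1 ∈ (locAct S abar (upPsi ψ q).ker).range)
  have hne' : locAct S abar (upPsi ψ q).ker a₀ x ≠ 0 := by rw [ha₀]; exact hne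
  set x₀ : HomMod O S K' O := x.1 with hx₀
  let V : Submodule ℂ (HomC K') := newSpace ψ S abar hq P₁
  have hstab : ∀ b, ∀ φ ∈ V, opC O S K' b φ ∈ V := fun b φ hφ => by
    obtain ⟨k1, k2⟩ := traces_opC_eq_zero hqS b φ hφ.2.2.1 hφ.2.2.2.1
    refine ⟨hP₁ b φ hφ.1, opC_mem_parabolicHoms hneg b φ hφ.2.1, k1, k2, fun c hc => ?_⟩
    rw [← Module.End.mul_apply, ← map_mul, mul_comm c b, map_mul, Module.End.mul_apply,
      hφ.2.2.2.2 c hc, map_zero]
  set φ₀ : HomC K' := opC O S K' P (toHomC x₀) with hφ₀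
  have hann : ∀ b, locAct S abar (upPsi ψ q).ker b = 0 → b • x₀ = 0 := fun b hb =>
    congrArg Subtype.val (LinearMap.congr_fun hb x)
  -- `P` preserves the two kernels
  have hPmem : φ₀ ∈ V := by
    obtain ⟨hc1, hc2⟩ := traces_toHomC_eq_zero h hx
    obtain ⟨k1, k2⟩ := traces_opC_eq_zero hqS P _ hc1 hc2
    refine ⟨hP₁ P _ hxP, hpar ℂ (toHomMod (toHomC x₀)), k1, k2, fun b hb => ?_⟩
    rw [hφ₀, ← toHomC_smul, ← toHomC_smul, smul_comm, hann b hb, smul_zero, map_zero]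
  have h0 : opC O S K' a₀ φ₀ ≠ 0 := fun h0 => by
    rw [hφ₀, ← toHomC_smul, ← toHomC_smul, smul_comm] at h0
    exact hne' (Subtype.ext ((isLocalizer_locOp S abar (upPsi ψ q).ker).eq_zero_of_smul_eq_zero hP
      (smul_mem_locHom a₀ x.2) (toHomC_injective hinj (h0.trans (map_zero toHomC).symm))))
  obtain ⟨θ', χ, φ, hφV, hφ0, hne0, heig, hχ, hχθ, hdia⟩ := exists_system_of_ne hneg h'.squarefree
    hodd h'.mem_of_dvd V (fun φ hφ => hφ.2.1) hstab a₀ hPmem h0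
  have hθ0 : ∀ b, locAct S abar (upPsi ψ q).ker b = 0 → θ' b = 0 := fun b hb =>
    (smul_eq_zero.1 ((heig b).symm.trans (hφV.2.2.2.2 b hb))).resolve_right hφ0
  obtain ⟨θ, hθ, hθσ⟩ := (h.raise hq hqS).exists_algebraHom θ' hθ0
  refine ⟨θ, χ, φ, fun hc => hne0 ?_, hθσ, hφV.2.1, hφ0, hφV.1, hχ, hdia, fun u => ?_,
    fun ℓ hℓ hℓS => ?_, hφV.2.2.1, hφV.2.2.2.1⟩
  · rw [← hθ a₀, show (⟨_, (h.raise hq hqS).locAct_mem a₀⟩ :
      (heckeModule (h.raise hq hqS)).algebra) = a from Subtype.ext ha₀, hc]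
  · rw [hχθ, ← hθ]
    exact congrArg θ (Subtype.ext ((h.raise hq hqS).dia_psi u)).symm
  · refine Eq.trans ?_ (congrArg (· • φ) (hθ (tOp O (M * q) S ℓ)).symm)
    rw [tOp_eq hℓ.out hℓS, ← opC_inr (O := O) ⟨ℓ, hℓ.out, hℓS⟩, heig]

/-- **The kernel of `degStar` is new at `q`.** -/
theorem apply_eq_zero_of_new (h : Hyp p ψ S abar) {σ : O →+* ℂ} (hσ : Function.Injective σ)
    (a : (heckeModule (h.raise hq hqS)).algebra)
    (ha : ∀ (θ : (heckeModule (h.raise hq hqS)).algebra →+* ℂ) (L' : ℕ)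
      (g : CuspForm (Gamma0 L') 2), (∀ c, θ (algebraMap O _ c) = σ c) → g.IsNewform →
      L' ∣ (M * q) ^ 2 →
      (∀ (ℓ : ℕ) (hℓ : ℓ.Prime) (hℓS : ℓ ∉ S) (u : (ZMod (M * q))ˣ),
        (u : ZMod (M * q)) = (ℓ : ZMod (M * q)) →
        qCoeff g ℓ = θ (⟨(heckeModule (h.raise hq hqS)).dia (upPsi ψ q u),
            Algebra.subset_adjoin (Or.inl ⟨_, rfl⟩)⟩ ^ halfInvExp Δ *
          ⟨(heckeModule (h.raise hq hqS)).T ℓ,
            Algebra.subset_adjoin (Or.inr ⟨ℓ, ⟨hℓ, hℓS⟩, rfl⟩)⟩)) →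
      q ∣ L' → ¬ q ^ 2 ∣ L' → θ a = 0)
    {x : (heckeModule (h.raise hq hqS)).M} (hx : degStar ψ S abar hq hqS x = 0) :
    (a : Module.End O (heckeModule (h.raise hq hqS)).M) x = 0 := by
  classical
  let : Algebra O ℂ := σ.toAlgebra
  by_contra hne
  obtain ⟨θ, χ, φ, hne0, hθσ, hpar, hφ0, -, hχ, hdia, hχθ, hT, hcor, hstar⟩ :=
    exists_system_new (h := h) hσ a hx hne ⊤ (fun _ _ _ => trivial) trivial
  have h' := h.raise hq hqS
  have hodd : Odd (Nat.card ((ZMod (M * q))ˣ ⧸ liftSub q ψ.ker)) := by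
    rw [show Nat.card ((ZMod (M * q))ˣ ⧸ liftSub q ψ.ker) = Nat.card Δ from h'.card_quotient]
    exact h'.odd_card
  obtain ⟨L', g, hg, hdvd, hcoef, hqL', hq2⟩ := exists_newform_new (K := ψ.ker) (χ := χ)
    (a := fun ℓ => if hℓ : ℓ.Prime ∧ ℓ ∉ S then θ ⟨(heckeModule (h.raise hq hqS)).T ℓ,
      Algebra.subset_adjoin (Or.inr ⟨ℓ, hℓ, rfl⟩)⟩ else 0) hq h'.squarefree h'.neg_one_mem hodd
    hqS h'.mem_of_dvd hχ hpar hφ0 hdia
    (fun ℓ hℓ hℓS => by
      simp only [dif_pos (⟨hℓ.out, hℓS⟩ : ℓ.Prime ∧ ℓ ∉ S)]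
      exact hT ℓ hℓS)
    hcor hstar
  refine hne0 (ha θ L' g hθσ hg hdvd (fun ℓ hℓ hℓS u hu => ?_) hqL' hq2)
  rw [hcoef ℓ hℓ hℓS u hu, show Nat.card ((ZMod (M * q))ˣ ⧸ liftSub q ψ.ker) = Nat.card Δ from
    h'.card_quotient, map_mul, map_pow, hχθ, dif_pos (⟨hℓ, hℓS⟩ : ℓ.Prime ∧ ℓ ∉ S)]
  rfl

end Fermat.Agent.RT.Modules
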