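import Fermat.Agent.RT.Modules.NewPart

/-!
# The symmetrised operator at `q` has the newform coefficients as eigenvalues

`Hyp.eq_symEnd`: an element of the Hecke algebra with these values at all systems is `symEnd`.
It is used in `RT/Modules/GaloisSide`.
-/

set_option autoImplicit false

noncomputable section

namespace Fermat.Agent.RT.Modules

open IsLocalRing MvPolynomial CongruenceSubgroup ModularFormClass
open ModularCurve.Period
open Fermat.Agent.RT.GammaH Fermat.Agent.RT.Ihara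
open Fermat.Agent.LevelRaising (RaiseData)

variable {M q : ℕ} {Δ : Type} [CommGroup Δ] {O : Type} [CommRing O] [IsDomain O]
  [IsDiscreteValuationRing O] [IsAdicComplete (maximalIdeal O) O] [Finite (ResidueField O)]
  [CharZero O] [NeZero M] [Finite Δ] {p : ℕ} [Fact p.Prime]
  [CharP (ResidueField O) p] {ψ : (ZMod M)ˣ →* Δ} {S : Finset ℕ} {abar : ℕ → ResidueField O}

omit [IsDomain O] [IsDiscreteValuationRing O] [IsAdicComplete (maximalIdeal O) O]
  [Finite (ResidueField O)] [CharZero O] [NeZero M] in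
/-- An operator avoiding `S` acts as the same operator seen avoiding a smaller set. -/
private theorem opC_rename [Algebra O ℂ] {S' : Finset ℕ} (hS : S' ⊆ S) (K : Subgroup (ZMod M)ˣ)
    (b : OpRing O M S) :
    opC O S' K (rename (Sum.map id fun ℓ : {ℓ : ℕ // ℓ.Prime ∧ ℓ ∉ S} =>
      (⟨ℓ.1, ℓ.2.1, fun hc => ℓ.2.2 (hS hc)⟩ : {ℓ : ℕ // ℓ.Prime ∧ ℓ ∉ S'})) b) = opC O S K b := by
  induction b using MvPolynomial.induction_on with
  | C c => rw [rename_C, opC_C, opC_C]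
  | add b b' hb hb' => rw [map_add, map_add, hb, hb', map_add]
  | mul_X b i hb =>
    rw [map_mul, map_mul, hb, map_mul]
    congr 1
    rcases i with u | ℓ
    · simp only [rename_X, Sum.map_inl, id, opC_inl]
    · have : Fact ℓ.1.Prime := ⟨ℓ.2.1⟩
      simp only [rename_X, Sum.map_inr]
      rw [opC_inr, opC_inr]

variable (O S abar) in
/-- The parabolic classes killed by the kernel of `locAct`. -/
private def killedParabolic [Algebra O ℂ] (K : Subgroup (ZMod M)ˣ) : Submodule ℂ (HomC K) where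
  carrier := {φ | φ ∈ parabolicHoms ℂ (gammaH M K) ℂ ∧
    ∀ b, locAct S abar K b = 0 → opC O S K b φ = 0}
  zero_mem' := ⟨zero_mem _, fun b _ => map_zero _⟩
  add_mem' {y z} hy hz := ⟨add_mem hy.1 hz.1,
    fun b hb => by rw [map_add, hy.2 b hb, hz.2 b hb, add_zero]⟩
  smul_mem' c y hy := ⟨Submodule.smul_mem _ c hy.1,
    fun b hb => by rw [map_smul, hy.2 b hb, smul_zero]⟩

/-- An element of the Hecke algebra whose value at every system is the `q`-th coefficient of a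
newform of that system is `symEnd`. -/
theorem Hyp.eq_symEnd (h : Hyp p ψ S abar) (hq : RaiseData q M) {σ : O →+* ℂ}
    (hσ : Function.Injective σ) (a : (heckeModule h).algebra)
    (ha : ∀ (θ : (heckeModule h).algebra →+* ℂ) (L' : ℕ)
      (g : CuspForm (Gamma0 L') 2), (∀ c, θ (algebraMap O _ c) = σ c) → g.IsNewform →
      L' ∣ M ^ 2 →
      (∀ (ℓ : ℕ) (hℓ : ℓ.Prime) (hℓS : ℓ ∉ S) (u : (ZMod M)ˣ), (u : ZMod M) = (ℓ : ZMod M) →
        qCoeff g ℓ = θ (⟨(heckeModule h).dia (ψ u),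
            Algebra.subset_adjoin (Or.inl ⟨_, rfl⟩)⟩ ^ halfInvExp Δ *
          ⟨(heckeModule h).T ℓ, Algebra.subset_adjoin (Or.inr ⟨ℓ, ⟨hℓ, hℓS⟩, rfl⟩)⟩)) →
      θ a = qCoeff g q) :
    (a : Module.End O (heckeModule h).M) = symEnd ψ S abar hq := by
  classical
  have : Fact q.Prime := ⟨hq.prime⟩
  let : Algebra O ℂ := σ.toAlgebra
  have hinj : Function.Injective (algebraMap O ℂ) := hσ
  have hneg : -1 ∈ ψ.ker := h.neg_one_mem
  have hodd : Odd (Nat.card ((ZMod M)ˣ ⧸ ψ.ker)) := by rw [h.card_quotient]; exact h.odd_card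
  set S' := S.erase q with hS'
  have hSS' : ∀ v : ℕ, v.Prime → v ∣ M → v ∈ S' := fun v hv hvM =>
    Finset.mem_erase.2 ⟨fun e => hq.not_dvd (e ▸ hvM), h.mem_of_dvd v hv hvM⟩
  let emb : {ℓ : ℕ // ℓ.Prime ∧ ℓ ∉ S} → {ℓ : ℕ // ℓ.Prime ∧ ℓ ∉ S'} := fun ℓ =>
    ⟨ℓ.1, ℓ.2.1, fun hc => ℓ.2.2 (Finset.mem_of_mem_erase hc)⟩
  let ren : OpRing O M S →ₐ[O] OpRing O M S' := rename (Sum.map id emb)
  have hren : ∀ b : OpRing O M S, opC O S' ψ.ker (ren b) = opC O S ψ.ker b :=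
    opC_rename (Finset.erase_subset q S) ψ.ker
  obtain ⟨a₀, ha₀⟩ : ∃ a₀, locAct S abar ψ.ker a₀ = a.1 :=
    (h.adjoin_eq_range ▸ a.2 : a.1 ∈ (locAct S abar ψ.ker).range)
  obtain ⟨ℓ₀, hℓ₀, hℓ₀S, hℓ₀E⟩ := h.nonEis
  obtain ⟨P, hP, hpar⟩ := exists_parabolicOp (K := ψ.ker) S abar h.squarefree
    hneg hℓ₀ hℓ₀S (fun hc => hℓ₀S (h.mem_of_dvd ℓ₀ hℓ₀ hc)) hℓ₀E
  rw [← ha₀]
  refine LinearMap.ext fun x => Subtype.ext ?_
  set x₀ : HomMod O S ψ.ker O := x.1 with hx₀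
  set D : OpRing O M S' := ren a₀ - X (Sum.inl (qUnit hq ^ halfInvExp Δ)) *
    X (Sum.inr ⟨q, hq.prime, Finset.notMem_erase q S⟩) with hD
  -- If not, `D` is nonzero on the parabolic classes killed by the kernel of `locAct`, so some
  -- eigensystem there has `θ' D ≠ 0`, against the hypothesis at its newform.
  let V : Submodule ℂ (HomC ψ.ker) := killedParabolic O S abar ψ.ker
  have hstab : ∀ b : OpRing O M S', ∀ φ ∈ V, opC O S' ψ.ker b φ ∈ V := fun b φ hφ =>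
    ⟨opC_mem_parabolicHoms hneg b φ hφ.1, fun c hc => by
      rw [← hren, ← Module.End.mul_apply, ← map_mul, mul_comm (ren c) b, map_mul,
        Module.End.mul_apply, hren, hφ.2 c hc, map_zero]⟩
  set φ₀ : HomC ψ.ker := opC O S ψ.ker P (toHomC x₀) with hφ₀
  have hφ₀V : φ₀ ∈ V := ⟨hpar ℂ (toHomMod (toHomC x₀)), fun b hb => by
    rw [hφ₀, ← toHomC_smul, ← toHomC_smul, smul_comm,
      show b • x₀ = 0 from congrArg Subtype.val (LinearMap.congr_fun hb x), smul_zero, map_zero]⟩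
  have hsymC : ∀ y : HomMod O S ψ.ker O,
      toHomC (symHom ψ S hq y) = diamond M ψ.ker ℂ (qUnit hq ^ halfInvExp Δ)
        (hecke M ψ.ker q ℂ (toHomC y)) := fun y => by
    symm
    refine (congrArg (diamond M ψ.ker ℂ _) (opOf_comp_coeff (R := O) (S := ℂ) _
      (algebraMap O ℂ).toAddMonoidHom (toHomMod.symm y))).trans ?_
    exact opOf_comp_coeff (R := O) (S := ℂ) _ (algebraMap O ℂ).toAddMonoidHom _
  by_contra hne
  have h0 : opC O S' ψ.ker D φ₀ ≠ 0 := fun h0 => hne (sub_eq_zero.1 ?_)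
  swap
  · rw [map_sub, map_mul, LinearMap.sub_apply, hren, Module.End.mul_apply, opC_inl, opC_inr,
      hφ₀, ← toHomC_smul, ← toHomC_smul, ← hsymC, ← map_sub, map_smul, smul_comm a₀ P,
      ← smul_sub] at h0
    refine (isLocalizer_locOp S abar ψ.ker).eq_zero_of_smul_eq_zero hP
      (Submodule.sub_mem _ (smul_mem_locHom a₀ x.2) (symEnd ψ S abar hq x).2) ?_
    exact toHomC_injective hinj (h0.trans (map_zero toHomC).symm)
  obtain ⟨θ', χ, φ, hφV, hφ0, hne0, heig, hχ, hχθ, hdia⟩ := exists_system_of_ne hneg h.squarefree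
    hodd hSS' V (fun φ hφ => hφ.1) hstab D hφ₀V h0
  have hθ0 : ∀ b, locAct S abar ψ.ker b = 0 → (θ'.comp ren) b = 0 := fun b hb =>
    (smul_eq_zero.1 ((heig (ren b)).symm.trans (by rw [hren]; exact hφV.2 b hb))).resolve_right hφ0
  obtain ⟨θ, hθ, hθσ⟩ := h.exists_algebraHom (θ'.comp ren) hθ0
  obtain ⟨L', g, hg, hdvd, hcoef, -⟩ := exists_newform_of_eigen h.squarefree hneg hodd S' hSS' χ hχ
    (fun ℓ => if hℓ : ℓ.Prime ∧ ℓ ∉ S' then θ' (X (Sum.inr ⟨ℓ, hℓ⟩)) else 0) hφV.1 hφ0 hdia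
    (fun ℓ hℓ hℓS => by
      rw [dif_pos (⟨hℓ.out, hℓS⟩ : ℓ.Prime ∧ ℓ ∉ S'), ← opC_inr (O := O) ⟨ℓ, hℓ.out, hℓS⟩, heig])
  refine hne0 ?_
  have hqv : θ a = qCoeff g q := by
    refine ha θ L' g hθσ hg hdvd fun ℓ hℓ hℓS u hu => ?_
    have hℓS' : ℓ ∉ S' := fun hc => hℓS (Finset.mem_of_mem_erase hc)
    rw [hcoef ℓ hℓ hℓS' u hu, dif_pos (⟨hℓ, hℓS'⟩ : ℓ.Prime ∧ ℓ ∉ S'), h.card_quotient, map_mul,
      map_pow, hχθ]
    refine congrArg₂ (fun s t : ℂ => s ^ halfInvExp Δ * t) ?_ ?_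
    · rw [show (⟨(heckeModule h).dia (ψ u), _⟩ : (heckeModule h).algebra) =
        ⟨_, h.locAct_mem (X (Sum.inl u))⟩ from Subtype.ext (h.dia_psi u), hθ]
      simp only [AlgHom.comp_apply, ren, rename_X, Sum.map_inl, id]
    · refine Eq.trans ?_ (hθ (tOp O M S ℓ)).symm
      simp only [AlgHom.comp_apply, ren, tOp_eq hℓ hℓS, rename_X, Sum.map_inr]
      rfl
  have hu : θ' (X (Sum.inl (qUnit hq ^ halfInvExp Δ))) =
      (χ (qUnit hq) : ℂ) ^ halfInvExp Δ := by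
    rw [← hχθ, map_pow, Units.val_pow_eq_pow_val]
  rw [hD, map_sub, map_mul, hu, sub_eq_zero,
    show θ' (ren a₀) = θ a from (hθ a₀).symm.trans (congrArg θ (Subtype.ext ha₀)), hqv,
    hcoef q hq.prime (Finset.notMem_erase q S) (qUnit hq) (ZMod.coe_unitOfCoprime _ _),
    dif_pos (⟨hq.prime, Finset.notMem_erase q S⟩ : q.Prime ∧ q ∉ S'), h.card_quotient]
  rfl

end Fermat.Agent.RT.Modules
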