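import Fermat.Agent.RT.Glue.Realisation
import Fermat.Agent.RT.Modules.NewPart
import Fermat.Agent.RT.Modules.SymEigen

/-!
# The glued representation and the degeneracy maps

At a prime `q ≠ p` outside the level the trace of a Frobenius element is the symmetrised operator
at `q`. At level `M q` the squared trace is `(q + 1) ^ 2` on the kernel of `degStar`.
-/

set_option autoImplicit false

noncomputable section

namespace Fermat.Agent.RT.Modules

open IsLocalRing
open Fermat.Agent.RT.Glue
open Fermat.Agent.LevelRaising (RaiseData)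
open GaloisReps (AbsGal HeckeGaloisModel)

variable {O : Type} [CommRing O] [IsDomain O] [IsDiscreteValuationRing O]
  [IsAdicComplete (maximalIdeal O) O] [Finite (ResidueField O)] [CharZero O]
  {M q : ℕ} [NeZero M] {Δ : Type} [CommGroup Δ] [Finite Δ] {p : ℕ} [Fact p.Prime]
  [CharP (ResidueField O) p] {ψ : (ZMod M)ˣ →* Δ} {S : Finset ℕ} {abar : ℕ → ResidueField O}
  {D : ∀ (N : ℕ) [NeZero N], HeckeGaloisModel N p}

omit [CharP (ResidueField O) p] in
/-- An embedding of `O` into `ℂ` through the algebraic closure. -/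
theorem exists_complexEquiv (hp : (p : O) ∈ maximalIdeal O) :
    ∃ e : KBar O ≃+* ℂ,
      Function.Injective (e.toRingHom.comp (algebraMap O (KBar O))) := by
  obtain ⟨ι⟩ := GaloisReps.exists_padicHom O hp
  obtain ⟨e⟩ := nonempty_ringEquiv_complex O ι
  refine ⟨e, e.injective.comp ?_⟩
  rw [IsScalarTower.algebraMap_eq O (FractionRing O)]
  exact (algebraMap (FractionRing O) _).injective.comp (IsFractionRing.injective O _)

/-- A complex system over the embedding comes from a point. -/
def pointOf {A : Type} [CommRing A] [Algebra O A] (e : KBar O ≃+* ℂ) (θ : A →+* ℂ)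
    (hθ : ∀ c, θ (algebraMap O A c) = e.toRingHom.comp (algebraMap O (KBar O)) c) :
    A →ₐ[O] KBar O :=
  { e.symm.toRingHom.comp θ with
    commutes' := fun c => e.injective ((e.apply_symm_apply _).trans (hθ c)) }

omit [IsDiscreteValuationRing O] [IsAdicComplete (maximalIdeal O) O] [Finite (ResidueField O)]
  [CharZero O] in
/-- The point attached to a complex system has the same values. -/
theorem apply_pointOf {A : Type} [CommRing A] [Algebra O A] (e : KBar O ≃+* ℂ) (θ : A →+* ℂ)
    (hθ : ∀ c, θ (algebraMap O A c) = e.toRingHom.comp (algebraMap O (KBar O)) c) (x : A) :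
    e (pointOf e θ hθ x) = θ x :=
  e.apply_symm_apply _

section Lower

variable (h : Hyp p ψ S abar) [IsLocalRing (heckeModule h).algebra]
  {pt : ∀ θ : (heckeModule h).algebra →ₐ[O] KBar O,
    Point (p := p) (heckeModule h) h.mem_of_dvd θ.toRingHom}

/-- **The trace of a Frobenius element outside the level is the symmetrised operator.** -/
theorem Hyp.trace_eq_symEnd (G : Glued D pt) (hp : (p : O) ∈ maximalIdeal O) (hpS : p ∈ S)
    (hq : RaiseData q M) (hqp : q ≠ p) {A : ValuationSubring (AlgebraicClosure ℚ)}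
    (hA : A.LiesOverPrime q) {s : AbsGal} (hs : A.IsFrobeniusAt s q) :
    (((G.R s).trace : (heckeModule h).algebra) : Module.End O (heckeModule h).M) =
      symEnd ψ S abar hq := by
  obtain ⟨e, he⟩ := exists_complexEquiv (O := O) hp
  refine h.eq_symEnd hq he _ fun θ L' g hθ hg hdvd hcoef => ?_
  have : NeZero L' := ⟨fun h0 => pow_ne_zero 2 (NeZero.ne M) (Nat.eq_zero_of_zero_dvd (h0 ▸ hdvd))⟩
  obtain ⟨r⟩ := nonempty_realisation hp hg e
  have hcop : ¬ q ∣ L' * p := fun hc => (hq.prime.dvd_mul.1 hc).elim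
    (fun hc => hq.not_dvd (hq.prime.dvd_of_dvd_pow (hc.trans hdvd)))
    (fun hc => hqp ((Nat.prime_dvd_prime_iff_eq hq.prime Fact.out).1 hc))
  have key := G.trace_realisation hp hpS r hdvd (pointOf e θ hθ) (fun ℓ hℓ hℓS => by
    rw [apply_pointOf]
    exact hcoef ℓ hℓ hℓS _ (ZMod.coe_unitOfCoprime _ _)) s
  have h1 := r.trace_frobenius_good (D L') hq.prime hcop hA hs 1
  rw [pow_one] at h1
  rw [← apply_pointOf e θ hθ, key, h1, GaloisReps.powerTrace, e.apply_symm_apply]

end Lower

section Upper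

variable [NeZero (M * q)] {hq : RaiseData q M} {hqS : q ∈ S} (h : Hyp p ψ S abar)
  [IsLocalRing (heckeModule (h.raise hq hqS)).algebra]
  {pt : ∀ θ : (heckeModule (h.raise hq hqS)).algebra →ₐ[O] KBar O,
    Point (p := p) (heckeModule (h.raise hq hqS)) (h.raise hq hqS).mem_of_dvd θ.toRingHom}

/-- **The kernel of `degStar` is special at `q`.** -/
theorem Hyp.trace_sq_sub_apply (G : Glued D pt) (hp : (p : O) ∈ maximalIdeal O) (hpS : p ∈ S)
    (hqp : q ≠ p)
    (hD : ∀ (N : ℕ) [NeZero N], q ∣ N → ¬ q ^ 2 ∣ N →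
      NewformLocal.UnipotentAt (D N) q ∧ NewformLocal.ToricSquareAt (D N) q)
    {A : ValuationSubring (AlgebraicClosure ℚ)} (hA : A.LiesOverPrime q) {s : AbsGal}
    (hs : A.IsFrobeniusAt s q) {x : (heckeModule (h.raise hq hqS)).M}
    (hx : degStar ψ S abar hq hqS x = 0) :
    (((G.R s).trace ^ 2 - ((q : (heckeModule (h.raise hq hqS)).algebra) + 1) ^ 2 :
      (heckeModule (h.raise hq hqS)).algebra) :
        Module.End O (heckeModule (h.raise hq hqS)).M) x = 0 := by
  obtain ⟨e, he⟩ := exists_complexEquiv (O := O) hp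
  refine apply_eq_zero_of_new h he _ (fun θ L' g hθ hg hdvd hcoef hqL hq2 => ?_) hx
  have : NeZero L' :=
    ⟨fun h0 => pow_ne_zero 2 (NeZero.ne (M * q)) (Nat.eq_zero_of_zero_dvd (h0 ▸ hdvd))⟩
  obtain ⟨r⟩ := nonempty_realisation hp hg e
  have key := G.trace_realisation hp hpS r hdvd (pointOf e θ hθ) (fun ℓ hℓ hℓS => by
    rw [apply_pointOf]
    exact hcoef ℓ hℓ hℓS _ (ZMod.coe_unitOfCoprime _ _)) s
  have h1 := r.trace_sq_frobenius (D L') hq.prime hqp hqL (hD L' hqL hq2).2 hA hs
  rw [← apply_pointOf e θ hθ, map_sub, map_pow, key, h1, map_pow, map_add, map_natCast, map_one,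
    sub_self, map_zero]

end Upper

end Fermat.Agent.RT.Modules
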