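import Fermat.Agent.RT.Modules.Congruent

/-!
# The Hecke module of a residual system

For squarefree `L` with primes in `S`, an odd `p`, a surjection `ψ` of `(ℤ/L)ˣ` onto a finite
`p`-group and a non-Eisenstein residual system satisfying `EllOK`, the localisation of
`Hom(Γ_{ker ψ}, O)` is a Hecke module: free over `O[Δ]`, reduced, and its systems are those of
newforms.

See `heckeModule` and `exists_newform`.
-/

set_option autoImplicit false

noncomputable section

namespace Fermat.Agent.RT.Modules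

open IsLocalRing MvPolynomial
open Fermat.Agent.RT.GammaH
open scoped ModularForm

variable {O : Type} [CommRing O] {L : ℕ} {Δ : Type} [CommGroup Δ]

/-! ## The hypotheses -/

/-- The hypotheses on a level and a residual system: `p` is odd, `ψ` maps onto a `p`-group, `L` is
squarefree with its primes in `S`, the system is not Eisenstein and satisfies `EllOK` at the
elliptic elements. -/
structure Hyp [IsLocalRing O] (p : ℕ) (ψ : (ZMod L)ˣ →* Δ) (S : Finset ℕ)
    (abar : ℕ → ResidueField O) : Prop where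
  ne_two : p ≠ 2
  isPGroup : IsPGroup p Δ
  surjective : Function.Surjective ψ
  squarefree : Squarefree L
  mem_of_dvd : ∀ v : ℕ, v.Prime → v ∣ L → v ∈ S
  nonEis : ∃ ℓ : ℕ, ℓ.Prime ∧ ℓ ∉ S ∧ abar ℓ ≠ 1 + (ℓ : ResidueField O)
  ell : EllOK S abar

section

variable [IsLocalRing O] {p : ℕ} {ψ : (ZMod L)ˣ →* Δ} {S : Finset ℕ} {abar : ℕ → ResidueField O}
  (h : Hyp p ψ S abar)

namespace Hyp

include h

/-- Under the hypotheses `-1` lies in the kernel of `ψ`. -/
theorem neg_one_mem [Fact p.Prime] : -1 ∈ ψ.ker := neg_one_mem_ker ψ h.ne_two h.isPGroup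

/-- The diamond quotient is the group `Δ`. -/
theorem card_quotient : Nat.card ((ZMod L)ˣ ⧸ ψ.ker) = Nat.card Δ :=
  Nat.card_congr (QuotientGroup.quotientKerEquivOfSurjective ψ h.surjective).toEquiv

/-- Under the hypotheses `Δ` has odd order. -/
theorem odd_card [Fact p.Prime] [Finite Δ] : Odd (Nat.card Δ) := by
  obtain ⟨k, hk⟩ := IsPGroup.iff_card.1 h.isPGroup
  rw [hk]
  exact ((Fact.out : p.Prime).odd_of_ne_two h.ne_two).pow

theorem isPGroup_quotient [NeZero L] {M : ℕ} (hM : M ∣ L) :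
    IsPGroup p ((ZMod M)ˣ ⧸ (ψ.ker.map (ZMod.unitsMap hM))) := by
  have hq : IsPGroup p ((ZMod L)ˣ ⧸ ψ.ker) :=
    h.isPGroup.of_equiv (QuotientGroup.quotientKerEquivOfSurjective ψ h.surjective).symm
  refine hq.of_surjective (QuotientGroup.map ψ.ker (ψ.ker.map (ZMod.unitsMap hM))
    (ZMod.unitsMap hM) (Subgroup.le_comap_map _ _)) fun x => ?_
  induction x using QuotientGroup.induction_on with | _ u => ?_
  obtain ⟨w, rfl⟩ := ZMod.unitsMap_surjective hM u
  exact ⟨QuotientGroup.mk w, rfl⟩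

end Hyp

end

/-! ## The localisation and its operators -/

variable (O L) in
/-- `T_ℓ` among the operators, zero unless `ℓ ∉ S` is prime. -/
def tOp (S : Finset ℕ) (ℓ : ℕ) : OpRing O L S :=
  if h : ℓ.Prime ∧ ℓ ∉ S then X (Sum.inr ⟨ℓ, h⟩) else 0

/-- For a prime `ℓ ∉ S` the operator `tOp` is the symbol of `ℓ`. -/
theorem tOp_eq {S : Finset ℕ} {ℓ : ℕ} (hℓ : ℓ.Prime) (hℓS : ℓ ∉ S) :
    tOp O L S ℓ = X (Sum.inr ⟨ℓ, hℓ, hℓS⟩) :=
  dif_pos ⟨hℓ, hℓS⟩

variable [IsDomain O] [IsDiscreteValuationRing O] [IsAdicComplete (maximalIdeal O) O]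
  [Finite (ResidueField O)] [CharZero O] [NeZero L] [Finite Δ] {p : ℕ} [Fact p.Prime]
  [CharP (ResidueField O) p] {ψ : (ZMod L)ˣ →* Δ} {S : Finset ℕ} {abar : ℕ → ResidueField O}

namespace Hyp

variable (h : Hyp p ψ S abar)

omit [CharZero O] [Finite (ResidueField O)] [Finite Δ] [CharP (ResidueField O) p] in
theorem locAct_congr {u v : (ZMod L)ˣ} (huv : ψ u = ψ v) :
    locAct S abar ψ.ker (X (Sum.inl u)) = locAct S abar ψ.ker (X (Sum.inl v)) := by
  refine LinearMap.ext fun x => Subtype.ext ?_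
  rw [coe_locAct_apply, coe_locAct_apply, X_inl_smul, X_inl_smul,
    diamond_congr_ker (fun _ => MonoidHom.mem_ker) huv]

/-- The diamond operators on the localisation. -/
def dia : Δ →* Module.End O (locHom S abar ψ.ker) where
  toFun q := locAct S abar ψ.ker (X (Sum.inl (psiInv h.surjective q)))
  map_one' := LinearMap.ext fun x => Subtype.ext (by
    rw [coe_locAct_apply, X_inl_smul]
    exact diamond_of_mem O (MonoidHom.mem_ker.2 (Function.surjInv_eq h.surjective 1)) _)
  map_mul' q q' := by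
    refine LinearMap.ext fun x => Subtype.ext ?_
    rw [Module.End.mul_apply, coe_locAct_apply, coe_locAct_apply, coe_locAct_apply, X_inl_smul,
      X_inl_smul, X_inl_smul]
    refine (LinearMap.congr_fun (diamond_congr_ker (fun _ => MonoidHom.mem_ker)
      (v := psiInv h.surjective q * psiInv h.surjective q') ?_) _).trans (diamond_mul O _ _ _)
    rw [map_mul]
    simp only [psiInv, Function.surjInv_eq h.surjective]

omit [Finite (ResidueField O)] [CharZero O] [Finite Δ] [Fact (Nat.Prime p)]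
  [CharP (ResidueField O) p] in
/-- The diamond of `ψ u` acts as the symbol of `u`. -/
theorem dia_psi (u : (ZMod L)ˣ) : h.dia (ψ u) = locAct S abar ψ.ker (X (Sum.inl u)) :=
  locAct_congr (Function.surjInv_eq h.surjective _)

include h in
/-- The localised module is free over `O[Δ]`, of the rank of the localised module of `Γ₀(L)`. -/
theorem exists_basis :
    ∃ b : Fin (Module.finrank O (locHom S abar (⊤ : Subgroup (ZMod L)ˣ))) →
        locHom S abar ψ.ker,
      Function.Bijective fun c :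
          Fin (Module.finrank O (locHom S abar (⊤ : Subgroup (ZMod L)ˣ))) × Δ →₀ O =>
        c.sum fun iq x => x • h.dia iq.2 (b iq.1) := by
  let := Fintype.ofFinite Δ
  rw [locHom_eq (isLocalizer_locOp_top S abar ψ.ker)]
  exact exists_freeBasisData S abar h.ne_two h.isPGroup h.surjective (fun _ => MonoidHom.mem_ker)
    h.mem_of_dvd h.nonEis h.ell (isLocalizer_locOp S abar ψ.ker)
    (isLocalizer_locOp_top S abar ψ.ker)

omit [Finite (ResidueField O)] [CharZero O] [Finite Δ] [Fact (Nat.Prime p)]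
  [CharP (ResidueField O) p] in
/-- The diamond and Hecke operators generate the image of all operators. -/
theorem adjoin_eq_range :
    Algebra.adjoin O (Set.range h.dia ∪
        (fun ℓ => locAct S abar ψ.ker (tOp O L S ℓ)) '' {ℓ | ℓ.Prime ∧ ℓ ∉ S}) =
      (locAct S abar ψ.ker).range := by
  rw [← Algebra.map_top, ← MvPolynomial.adjoin_range_X, AlgHom.map_adjoin, ← Set.range_comp]
  congr 1
  ext f
  simp only [Set.mem_union, Set.mem_range, Set.mem_image, Function.comp_apply]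
  constructor
  · rintro (⟨q, rfl⟩ | ⟨ℓ, hℓ, rfl⟩)
    · exact ⟨Sum.inl (psiInv h.surjective q), rfl⟩
    · exact ⟨Sum.inr ⟨ℓ, hℓ⟩, by rw [tOp_eq hℓ.1 hℓ.2]⟩
  · rintro ⟨u | ℓ, rfl⟩
    · exact Or.inl ⟨ψ u, h.dia_psi u⟩
    · exact Or.inr ⟨ℓ.1, ℓ.2, by rw [tOp_eq ℓ.2.1 ℓ.2.2]⟩

omit [Finite (ResidueField O)] [CharZero O] [Finite Δ] [Fact (Nat.Prime p)]
    [CharP (ResidueField O) p] in
/-- Every operator acts through the Hecke algebra. -/
theorem locAct_mem (a : OpRing O L S) :
    locAct S abar ψ.ker a ∈ Algebra.adjoin O (Set.range h.dia ∪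
      (fun ℓ => locAct S abar ψ.ker (tOp O L S ℓ)) '' {ℓ | ℓ.Prime ∧ ℓ ∉ S}) :=
  h.adjoin_eq_range.symm ▸ ⟨a, rfl⟩

omit [CharZero O] [Finite Δ] [Fact p.Prime] [CharP (ResidueField O) p] in
/-- `T_ℓ` minus a lift of `abar ℓ` is nilpotent modulo the maximal ideal. -/
theorem residual {ℓ : ℕ} (hℓ : ℓ.Prime) (hℓS : ℓ ∉ S) {a : O} (ha : residue O a = abar ℓ) :
    ∃ n : ℕ, ∀ x : locHom S abar ψ.ker,
      ((locAct S abar ψ.ker (tOp O L S ℓ) - a • (1 : Module.End O (locHom S abar ψ.ker))) ^ n) x ∈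
        maximalIdeal O • (⊤ : Submodule O (locHom S abar ψ.ker)) := by
  have hmem : tOp O L S ℓ - C a ∈ resIdeal S abar L := by
    rw [mem_resIdeal, map_sub, tOp_eq hℓ hℓS, opRes_inr, ← algebraMap_eq, AlgHom.commutes,
      ResidueField.algebraMap_eq, ha, sub_self]
  obtain ⟨n, hn⟩ :=
    (isLocalizer_locOp S abar ψ.ker).exists_pow_smul_mem (O := O) hmem (resIdeal_ne_top S abar)
  refine ⟨n, fun x => ?_⟩
  rw [show a • (1 : Module.End O (locHom S abar ψ.ker)) = locAct S abar ψ.ker (C a) by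
      rw [← algebraMap_eq, AlgHom.commutes, Algebra.algebraMap_eq_smul_one],
    ← map_sub, ← map_pow, Submodule.mem_smul_top_iff, coe_locAct_apply]
  exact hn _ x.2

include h in
omit [CharP (ResidueField O) p] in
/-- The Hecke algebra is reduced. -/
theorem isReduced :
    IsReduced (Algebra.adjoin O (Set.range h.dia ∪
      (fun ℓ => locAct S abar ψ.ker (tOp O L S ℓ)) '' {ℓ | ℓ.Prime ∧ ℓ ∉ S})) := by
  obtain ⟨σ, hσ⟩ := exists_injective_complex O
  let : Algebra O ℂ := σ.toAlgebra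
  obtain ⟨ℓ, hℓ, hℓS, hℓE⟩ := h.nonEis
  obtain ⟨P, hP, hpar⟩ := exists_parabolicOp (K := ψ.ker) S abar h.squarefree h.neg_one_mem hℓ hℓS
    (fun hc => hℓS (h.mem_of_dvd ℓ hℓ hc)) hℓE
  refine ⟨fun y hy => ?_⟩
  obtain ⟨n, hn⟩ := hy
  obtain ⟨a, ha⟩ : ∃ a, locAct S abar ψ.ker a = y.1 :=
    (h.adjoin_eq_range ▸ y.2 : y.1 ∈ (locAct S abar ψ.ker).range)
  refine Subtype.ext (LinearMap.ext fun x => Subtype.ext ?_)
  rw [← ha, coe_locAct_apply]
  refine smul_eq_zero_of_pow_smul h.neg_one_mem h.squarefree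
    (by rw [h.card_quotient]; exact h.odd_card) h.mem_of_dvd hσ
    (isLocalizer_locOp S abar ψ.ker) hP (hpar ℂ) x.2 (n := n) ?_
  rw [← coe_locAct_apply, map_pow, ha]
  have hn' := congrArg Subtype.val hn
  rw [SubmonoidClass.coe_pow] at hn'
  rw [hn']
  rfl

omit [Finite (ResidueField O)] [CharZero O] in
omit [Finite Δ] [Fact p.Prime] [CharP (ResidueField O) p] in
/-- The residual reduction of a system of the localisation. -/
theorem exists_red_system [Algebra O ℂ] (hinj : Function.Injective (algebraMap O ℂ))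
    (θ' : OpRing O L S →ₐ[O] ℂ)
    (hθ : ∀ a, localAct O (locOp S abar ψ.ker) (HomMod O S ψ.ker O) a = 0 → θ' a = 0) :
    ∃ red : integralClosure O ℂ →+* AlgebraicClosure (ResidueField O), ∀ x,
      ∃ z : integralClosure O ℂ, (z : ℂ) = θ' x ∧
        red z = algebraMap _ _ (opRes S abar L x) := by
  obtain ⟨red, hred⟩ := exists_red O hinj
  exact ⟨red, fun x => ⟨⟨_, isIntegral_character θ' hθ x⟩, rfl,
    red_character (isLocalizer_locOp S abar ψ.ker) θ' hθ hred x rfl⟩⟩

omit [Finite Δ] in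
include h in
/-- An eigen homomorphism at level `L / v` with the system of the localisation makes `L / v` a
congruent level. -/
theorem isCongruentLevel_descent [Algebra O ℂ] {v : ℕ} (hv : v.Prime) (hvL : v ∣ L)
    (θ' : OpRing O L S →ₐ[O] ℂ)
    {red : integralClosure O ℂ →+* AlgebraicClosure (ResidueField O)}
    (hred : ∀ x, ∃ z : integralClosure O ℂ, (z : ℂ) = θ' x ∧
      red z = algebraMap _ _ (opRes S abar L x))
    {φ' : Additive (gammaH (L / v) (ψ.ker.map (ZMod.unitsMap (Nat.div_dvd_of_dvd hvL)))) →+ ℂ}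
    (h0 : φ' ≠ 0)
    (hdia : ∀ u : (ZMod L)ˣ, diamond (L / v) _ ℂ (ZMod.unitsMap (Nat.div_dvd_of_dvd hvL) u) φ' =
      θ' (X (Sum.inl u)) • φ')
    (hT : ∀ (ℓ : ℕ) [Fact ℓ.Prime], ℓ ∉ S → hecke (L / v) _ ℓ ℂ φ' = θ' (tOp O L S ℓ) • φ') :
    IsCongruentLevel S abar (L / v) := by
  classical
  have : NeZero (L / v) :=
    ⟨(Nat.div_pos (Nat.le_of_dvd (Nat.pos_of_ne_zero (NeZero.ne L)) hvL) hv.pos).ne'⟩
  have hd : L / v ∣ L := Nat.div_dvd_of_dvd hvL
  let s : (ZMod (L / v))ˣ → (ZMod L)ˣ := Function.surjInv (ZMod.unitsMap_surjective hd)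
  let ren : OpRing O (L / v) S →ₐ[O] OpRing O L S := rename (Sum.map s id)
  have hren : (opRes S abar L).comp ren = opRes S abar (L / v) :=
    MvPolynomial.algHom_ext fun i => by rcases i with u | ℓ <;> simp [ren, opRes]
  refine isCongruentLevel_of_eigen h.ne_two (h.isPGroup_quotient hd)
    (h.squarefree.squarefree_of_dvd hd)
    (fun w hw hwd => h.mem_of_dvd w hw (hwd.trans hd)) h.nonEis h.ell h0 (θ'.comp ren)
    (fun x => ?_) (red := red) fun x => ?_
  · induction x using MvPolynomial.induction_on with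
    | C c => rw [opC_C, Module.algebraMap_end_apply, ← algebraMap_eq, AlgHom.commutes]
    | add x y hx hy => rw [map_add, map_add, LinearMap.add_apply, hx, hy, add_smul]
    | mul_X x i hx =>
      rw [map_mul, map_mul, Module.End.mul_apply]
      rcases i with u | ℓ
      · rw [opC_inl, show diamond (L / v) _ ℂ u φ' = θ' (X (Sum.inl (s u))) • φ' by
            rw [← hdia (s u), Function.surjInv_eq (ZMod.unitsMap_surjective hd)],
          map_smul, hx, smul_smul, mul_comm]
        congr 2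
        simp only [AlgHom.comp_apply, ren, rename_X, Sum.map_inl]
      · have : Fact ℓ.1.Prime := ⟨ℓ.2.1⟩
        rw [opC_inr, hT ℓ.1 ℓ.2.2, map_smul, hx, smul_smul, mul_comm]
        congr 2
        simp only [AlgHom.comp_apply, ren, rename_X, Sum.map_inr, id, tOp_eq ℓ.2.1 ℓ.2.2]
  · obtain ⟨z, hz, hzr⟩ := hred (ren x)
    exact ⟨z, hz, by rw [hzr, ← AlgHom.comp_apply, hren]⟩

include h in
/-- The newform `g` of a system of an algebra through which the localisation acts: its coefficients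
outside `S` are those of the twisted system, `v ^ 2` divides its level exactly where the diamonds at
`v` are nontrivial, a prime of `L` not in its level can be removed from the congruent level, and the
system is that of a form `f` on `Γ₁(L)` with this nebentype, an eigenform outside `S`. -/
theorem exists_newform {A : Type} [CommRing A] [Algebra O A] (F : OpRing O L S →ₐ[O] A)
    (hF : ∀ a, locAct S abar ψ.ker a = 0 → F a = 0) (θ : A →+* ℂ) :
    ∃ (L' : ℕ) (g : CuspForm (CongruenceSubgroup.Gamma0 L') 2), g.IsNewform ∧ L' ∣ L ^ 2 ∧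
      (∀ (ℓ : ℕ), ℓ.Prime → ℓ ∉ S → ∀ (u : (ZMod L)ˣ), (u : ZMod L) = (ℓ : ZMod L) →
        ModularFormClass.qCoeff g ℓ =
          θ (F (X (Sum.inl u)) ^ halfInvExp Δ * F (tOp O L S ℓ))) ∧
      (∀ v : ℕ, v.Prime → v ∣ L → (v ^ 2 ∣ L' ↔ ∃ u : (ZMod L)ˣ,
        ((u : ZMod L).cast : ZMod (L / v)) = 1 ∧ θ (F (X (Sum.inl u))) ≠ 1)) ∧
      (∀ v : ℕ, v.Prime → v ∣ L → ¬ v ∣ L' → IsCongruentLevel S abar (L / v)) ∧
      ∃ f : CuspForm (CongruenceSubgroup.Gamma1 L) 2, ModularFormClass.qCoeff f 1 = 1 ∧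
        (∀ (γ : CongruenceSubgroup.Gamma0 L) (u : (ZMod L)ˣ),
          CongruenceSubgroup.Gamma0Map L γ = (u : ZMod L) →
            (⇑f) ∣[(2 : ℤ)] (γ : Matrix.SpecialLinearGroup (Fin 2) ℤ) =
              θ (F (X (Sum.inl u))) • ⇑f) ∧
        (∀ (ℓ : ℕ), ℓ.Prime → ℓ ∉ S → ModularFormClass.qCoeff f ℓ = θ (F (tOp O L S ℓ))) ∧
        ∀ (ℓ : ℕ), ℓ.Prime → ℓ ∉ S → ∀ (u : (ZMod L)ˣ), (u : ZMod L) = (ℓ : ZMod L) →
          ∀ n : ℕ, ModularFormClass.qCoeff f (n * ℓ) +
              (if ℓ ∣ n then θ (F (X (Sum.inl u))) * ℓ *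
                ModularFormClass.qCoeff f (n / ℓ) else 0) =
            ModularFormClass.qCoeff f ℓ * ModularFormClass.qCoeff f n := by
  classical
  let : Algebra O ℂ := (θ.comp (algebraMap O A)).toAlgebra
  have hinj : Function.Injective (algebraMap O ℂ) := by
    refine (injective_iff_map_eq_zero _).2 fun c hc => by_contra fun hc0 => ?_
    obtain ⟨ϖ, hϖ⟩ := IsDiscreteValuationRing.exists_irreducible O
    obtain ⟨k, u, rfl⟩ := IsDiscreteValuationRing.eq_unit_mul_pow_irreducible hc0 hϖ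
    rw [map_mul, map_pow] at hc
    have hw : algebraMap O ℂ ϖ = 0 :=
      eq_zero_of_pow_eq_zero ((mul_eq_zero.1 hc).resolve_left (u.isUnit.map _).ne_zero)
    have hpm : (p : O) ∈ maximalIdeal O := by
      rw [← residue_eq_zero_iff, map_natCast]
      exact CharP.cast_eq_zero _ p
    rw [hϖ.maximalIdeal_eq, Ideal.mem_span_singleton] at hpm
    obtain ⟨d, hd⟩ := hpm
    have := congrArg (algebraMap O ℂ) hd
    rw [map_natCast, map_mul, hw, zero_mul] at this
    exact Nat.cast_ne_zero.2 (Fact.out : p.Prime).ne_zero this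
  -- `θ ∘ F` vanishes where the localisation does, so some parabolic eigenclass has this system,
  -- and the class gives the newform.
  let θ' : OpRing O L S →ₐ[O] ℂ :=
    { θ.comp F.toRingHom with
      commutes' := fun c => congrArg θ (F.commutes c) }
  have hθ : ∀ a, localAct O (locOp S abar ψ.ker) (HomMod O S ψ.ker O) a = 0 → θ' a = 0 :=
    fun a ha => by
      show θ (F a) = 0
      rw [hF a ha, map_zero]
  obtain ⟨ℓ₀, hℓ₀, hℓ₀S, hℓ₀E⟩ := h.nonEis
  obtain ⟨P, hP, hpar⟩ := exists_parabolicOp (K := ψ.ker) S abar h.squarefree h.neg_one_mem hℓ₀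
    hℓ₀S (fun hc => hℓ₀S (h.mem_of_dvd ℓ₀ hℓ₀ hc)) hℓ₀E
  obtain ⟨φ, hφ0, hφp, hφ⟩ :=
    exists_eigvec hinj (isLocalizer_locOp S abar ψ.ker) hP (hpar ℂ) θ' hθ
  have hker : ∀ {u : (ZMod L)ˣ}, u ∈ ψ.ker → θ' (X (Sum.inl u)) = 1 := fun {u} hu => by
    refine sub_eq_zero.1 ?_
    rw [← map_one θ', ← map_sub]
    refine hθ _ (LinearMap.ext fun x => Subtype.ext ?_)
    show (X (Sum.inl u) - 1 : OpRing O L S) • (x : HomMod O S ψ.ker O) = 0
    rw [sub_smul, one_smul, X_inl_smul]
    exact sub_eq_zero.2 (diamond_of_mem O hu _)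
  have hmul : ∀ u w : (ZMod L)ˣ,
      θ' (X (Sum.inl (u * w))) = θ' (X (Sum.inl u)) * θ' (X (Sum.inl w)) := fun u w => by
    refine sub_eq_zero.1 ?_
    rw [← map_mul, ← map_sub]
    refine hθ _ (LinearMap.ext fun x => Subtype.ext ?_)
    show (X (Sum.inl (u * w)) - X (Sum.inl u) * X (Sum.inl w) : OpRing O L S) •
      (x : HomMod O S ψ.ker O) = 0
    rw [sub_smul, mul_smul, X_inl_smul, X_inl_smul, X_inl_smul]
    exact sub_eq_zero.2 (diamond_mul O u w _)
  let χ : (ZMod L)ˣ →* ℂˣ := MonoidHom.toHomUnits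
    { toFun := fun u => θ' (X (Sum.inl u))
      map_one' := hker (one_mem _)
      map_mul' := hmul }
  let a : ℕ → ℂ := fun ℓ => θ' (tOp O L S ℓ)
  have hdia : ∀ u, diamond L ψ.ker ℂ u φ = (χ u : ℂ) • φ := fun u => by
    rw [← opC_inl (O := O) (S := S), hφ]
    rfl
  have hT : ∀ (ℓ : ℕ) [Fact ℓ.Prime], ℓ ∉ S → hecke L ψ.ker ℓ ℂ φ = a ℓ • φ := fun ℓ hℓ hℓS => by
    simp only [a, tOp_eq hℓ.out hℓS]
    rw [← opC_inr (O := O) (K := ψ.ker) ⟨ℓ, hℓ.out, hℓS⟩, hφ]
  obtain ⟨L', g, hg, hdvd, hcoef, hsq, hdesc, f, hf1, hfneb, hfT, hfrec⟩ :=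
    exists_newform_of_eigen h.squarefree h.neg_one_mem
      (by rw [h.card_quotient]; exact h.odd_card) S h.mem_of_dvd χ
      (fun u hu => Units.ext (hker hu)) a hφp hφ0 hdia hT
  refine ⟨L', g, hg, hdvd, fun ℓ hℓ hℓS u hu => ?_, fun v hv hvL => ?_, fun v hv hvL hvL' => ?_,
    f, hf1, hfneb, hfT, hfrec⟩
  · rw [map_mul, map_pow, hcoef ℓ hℓ hℓS u hu, h.card_quotient, halfInvExp]
    rfl
  · rw [hsq v hv hvL]
    refine exists_congr fun u => and_congr_right fun _ => not_congr ?_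
    rw [← Units.val_eq_one]
    rfl
  · obtain ⟨φ', hφ'0, hφ'd, hφ'T⟩ := hdesc v hv hvL hvL'
    obtain ⟨red, hred⟩ := exists_red_system hinj θ' hθ
    exact h.isCongruentLevel_descent hv hvL θ' hred hφ'0 hφ'd hφ'T

end Hyp

variable (h : Hyp p ψ S abar)

/-! ## The Hecke module -/

/-- **The Hecke module** of level `ker ψ`. -/
def heckeModule : HeckeModule L ψ S abar where
  M := locHom S abar ψ.ker
  d := Module.finrank O (locHom S abar (⊤ : Subgroup (ZMod L)ˣ))
  basis := h.exists_basis.choose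
  T ℓ := locAct S abar ψ.ker (tOp O L S ℓ)
  dia := h.dia
  basis_bijective := h.exists_basis.choose_spec
  T_comm ℓ ℓ' := by rw [← map_mul, ← map_mul, mul_comm]
  dia_comm ℓ q := by
    show _ * locAct S abar ψ.ker _ = locAct S abar ψ.ker _ * _
    rw [← map_mul, ← map_mul, mul_comm]
  residual ℓ hℓ hℓS a ha := Hyp.residual hℓ hℓS ha
  isReduced := h.isReduced
  eigen θ := by
    let set := Set.range h.dia ∪
      (fun ℓ => locAct S abar ψ.ker (tOp O L S ℓ)) '' {ℓ | ℓ.Prime ∧ ℓ ∉ S}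
    let : CommRing (Algebra.adjoin O set) :=
      have := Algebra.isMulCommutative_adjoin O (s := set) fun x hx y hy => by
        obtain ⟨a, rfl⟩ : x ∈ (locAct S abar ψ.ker).range :=
          h.adjoin_eq_range ▸ Algebra.subset_adjoin hx
        obtain ⟨b, rfl⟩ : y ∈ (locAct S abar ψ.ker).range :=
          h.adjoin_eq_range ▸ Algebra.subset_adjoin hy
        show locAct S abar ψ.ker a * locAct S abar ψ.ker b =
          locAct S abar ψ.ker b * locAct S abar ψ.ker a
        rw [← map_mul, ← map_mul, mul_comm]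
      open scoped IsMulCommutative in inferInstance
    let F : OpRing O L S →ₐ[O] Algebra.adjoin O set :=
      (locAct S abar ψ.ker).codRestrict _ h.locAct_mem
    obtain ⟨L', g, hg, hdvd, hcoef, hsq, hdesc, f, hf1, hfneb, hfT, hfrec⟩ :=
      h.exists_newform F (fun a ha => Subtype.ext ha) θ
    have hd : ∀ u, F (X (Sum.inl u)) =
        (⟨h.dia (ψ u), Algebra.subset_adjoin (Or.inl ⟨_, rfl⟩)⟩ : Algebra.adjoin O set) := fun u =>
      Subtype.ext (h.dia_psi u).symm
    simp only [hd] at hcoef hsq hfneb hfrec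
    exact ⟨L', g, hg, hdvd, hcoef, hsq, hdesc, f, hf1, hfneb, hfT, hfrec⟩

omit [Finite (ResidueField O)] in
omit [Finite Δ] [Fact p.Prime] [CharP (ResidueField O) p] in
/-- A congruent form of level `L` makes the localisation of rank at least one. -/
theorem finrank_locHom_top_pos (hcong : IsCongruentLevel S abar L) :
    0 < Module.finrank O (locHom S abar (⊤ : Subgroup (ZMod L)ˣ)) := by
  rw [Nat.pos_iff_ne_zero]
  exact fun h0 => locHom_top_ne_bot hcong (Submodule.finrank_eq_zero.1 h0)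

/-- A congruent form of level `L` makes the Hecke module nonzero. -/
theorem heckeModule_d_pos (hcong : IsCongruentLevel S abar L) : 0 < (heckeModule h).d :=
  finrank_locHom_top_pos hcong

end Fermat.Agent.RT.Modules
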