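import Fermat.Agent.RT.GammaH.Local

/-!
# The localisation of `Hom(Γ_H, O)` at a residual system

The localised module does not depend on the idempotent cutting it out. `locHom` is the canonical
choice.
-/

set_option autoImplicit false

noncomputable section

namespace Fermat.Agent.RT.Modules

open IsLocalRing
open Fermat.Agent.RT.GammaH

section Unique

variable {O : Type} [CommRing O] {𝔸 : Type} [CommRing 𝔸] [Algebra O 𝔸] {m : Ideal 𝔸} {e e' : 𝔸}
  {H : Type} [AddCommGroup H] [Module 𝔸 H] [Module O H] [IsScalarTower O 𝔸 H]

theorem localPart_le (hm : m ≠ ⊤) (he : IsLocalizer m H e) (he' : IsLocalizer m H e') :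
    localPart O e H ≤ localPart O e' H := fun x hx => by
  have h' : e' ∉ m := fun hc => hm ((Ideal.eq_top_iff_one _).2 (by
    simpa using m.sub_mem hc he'.sub_one_mem))
  rw [mem_localPart]
  refine sub_eq_zero.1 (he.eq_zero_of_smul_eq_zero h' ?_ ?_)
  · rw [smul_sub, smul_comm e e', show e • x = x from hx]
  · rw [smul_sub, he'.idem, sub_self]

/-- Two idempotents for the same localisation cut out the same submodule. -/
theorem localPart_eq (hm : m ≠ ⊤) (he : IsLocalizer m H e) (he' : IsLocalizer m H e') :
    localPart O e H = localPart O e' H :=
  le_antisymm (localPart_le hm he he') (localPart_le hm he' he)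

end Unique

variable {O : Type} [CommRing O] [IsDomain O] [IsDiscreteValuationRing O]
  [IsAdicComplete (maximalIdeal O) O] {L : ℕ} [NeZero L] (S : Finset ℕ)
  (abar : ℕ → ResidueField O) (K : Subgroup (ZMod L)ˣ)

/-- An element cutting out the localisation on `Γ_H` and on `Γ₀(L)`. -/
def locOp : OpRing O L S :=
  (exists_isLocalizer (O := O) (resIdeal S abar L)
    (HomMod O S K O × HomMod O S (⊤ : Subgroup (ZMod L)ˣ) O)).choose

/-- `locOp` is a localiser on `Hom(Γ_H, O)` at the residual system. -/
theorem isLocalizer_locOp : IsLocalizer (resIdeal S abar L) (HomMod O S K O) (locOp S abar K) :=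
  (exists_isLocalizer (O := O) (resIdeal S abar L)
    (HomMod O S K O × HomMod O S (⊤ : Subgroup (ZMod L)ˣ) O)).choose_spec.of_injective
      (LinearMap.inl _ _ _) LinearMap.inl_injective

/-- `locOp` is also a localiser on `Hom(Γ₀(L), O)` at the residual system. -/
theorem isLocalizer_locOp_top :
    IsLocalizer (resIdeal S abar L) (HomMod O S (⊤ : Subgroup (ZMod L)ˣ) O) (locOp S abar K) :=
  (exists_isLocalizer (O := O) (resIdeal S abar L)
    (HomMod O S K O × HomMod O S (⊤ : Subgroup (ZMod L)ˣ) O)).choose_spec.of_injective
      (LinearMap.inr _ _ _) LinearMap.inr_injective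

/-- The localisation of `Hom(Γ_H, O)` at the residual system. -/
def locHom : Submodule O (HomMod O S K O) := localPart O (locOp S abar K) (HomMod O S K O)

variable {S abar K}

/-- The localised module is the fixed part of any localiser at the residual system. -/
theorem locHom_eq {e : OpRing O L S} (he : IsLocalizer (resIdeal S abar L) (HomMod O S K O) e) :
    locHom S abar K = localPart O e (HomMod O S K O) :=
  localPart_eq (resIdeal_ne_top S abar) (isLocalizer_locOp S abar K) he

/-- The localisation is stable under the operators. -/
theorem smul_mem_locHom (a : OpRing O L S) {x : HomMod O S K O} (hx : x ∈ locHom S abar K) :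
    a • x ∈ locHom S abar K :=
  smul_mem_localPart a hx

variable (S abar K)

/-- The operators on the localisation. -/
def locAct : OpRing O L S →ₐ[O] Module.End O (locHom S abar K) :=
  localAct O (locOp S abar K) (HomMod O S K O)

/-- The action on the localised module is the restriction of that of the operators. -/
theorem coe_locAct_apply (a : OpRing O L S) (x : locHom S abar K) :
    ((locAct S abar K a x : locHom S abar K) : HomMod O S K O) = a • (x : HomMod O S K O) := rfl

end Fermat.Agent.RT.Modules
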