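import Fermat.Agent.RT.GammaH.Lattice
import Fermat.Agent.RT.GammaH.Residual
import Fermat.Agent.RT.GammaH.Embed
import Fermat.Agent.RT.GammaH.Eigen
import Fermat.Agent.RT.Modules.Local

/-!
# Nonzero localisations and congruent levels

For squarefree `L`, its primes in `S` and a non-Eisenstein residual system, the localisation of
`Hom(Γ₀(L), O)` is nonzero exactly when some form of level `L` is congruent to the system. An eigen
homomorphism on `Γ_H` with residual system `abar` suffices for odd `p`, a `p`-group quotient and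
`EllOK`, the localisation of `Hom(Γ_H, O)` being free over the group ring of diamond operators.
-/

set_option autoImplicit false

noncomputable section

namespace Fermat.Agent.RT.Modules

open IsLocalRing MvPolynomial CongruenceSubgroup ModularFormClass
open Fermat.Agent.RT.GammaH

variable {O : Type} [CommRing O] {L : ℕ} [NeZero L] {S : Finset ℕ}

/-- An operator killing `Hom(Γ_H, O)` kills the complex homomorphisms. -/
theorem opC_eq_zero_of_forall [Algebra O ℂ] {K : Subgroup (ZMod L)ˣ} {a : OpRing O L S}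
    (ha : ∀ x : HomMod O S K O, a • x = 0) (φ : HomC K) : opC O S K a φ = 0 := by
  obtain ⟨r, w, ψ, hψ⟩ := exists_int_decomp φ
  have h : φ = ∑ i, w i • toHomC (O := O) (S := S)
      (toHomMod ((Int.castAddHom O).comp (ψ i)) : HomMod O S K O) := by
    refine AddMonoidHom.ext fun γ => ?_
    rw [hψ, AddMonoidHom.finsetSum_apply]
    refine Finset.sum_congr rfl fun i _ => ?_
    rw [AddMonoidHom.smul_apply, smul_eq_mul, toHomC_apply]
    exact congrArg _ (map_intCast (algebraMap O ℂ) _).symm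
  rw [h, map_sum]
  exact Finset.sum_eq_zero fun i _ => by rw [map_smul, ← toHomC_smul, ha, map_zero, smul_zero]

variable [IsDomain O] [IsDiscreteValuationRing O] [IsAdicComplete (maximalIdeal O) O]
  [Finite (ResidueField O)] [CharZero O] {abar : ℕ → ResidueField O}

omit [Finite (ResidueField O)] in
/-- A congruent form makes the localisation of `Hom(Γ₀(L), O)` nonzero. -/
theorem locHom_top_ne_bot (hcong : IsCongruentLevel S abar L) :
    locHom S abar (⊤ : Subgroup (ZMod L)ˣ) ≠ ⊥ :=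
  ne_bot_of_isCongruentLevel (isLocalizer_locOp S abar ⊤) hcong

/-- A nonzero localisation of `Hom(Γ₀(L), O)` gives a congruent form of level `L`. -/
theorem isCongruentLevel_of_ne_bot (hL : Squarefree L)
    (hS : ∀ v : ℕ, v.Prime → v ∣ L → v ∈ S)
    (hEis : ∃ ℓ : ℕ, ℓ.Prime ∧ ℓ ∉ S ∧ abar ℓ ≠ 1 + (ℓ : ResidueField O))
    (hne : locHom S abar (⊤ : Subgroup (ZMod L)ˣ) ≠ ⊥) : IsCongruentLevel S abar L := by
  classical
  obtain ⟨σ, hσ⟩ := exists_injective_complex O
  let : Algebra O ℂ := σ.toAlgebra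
  have hinj : Function.Injective (algebraMap O ℂ) := hσ
  -- a character of the localised algebra and an eigenclass, parabolic by the Eisenstein prime
  obtain ⟨θ, hθ⟩ := exists_character hne
  obtain ⟨ℓ, hℓ, hℓS, hℓE⟩ := hEis
  obtain ⟨P, hP, hpar⟩ := exists_parabolicOp (K := (⊤ : Subgroup (ZMod L)ˣ)) S abar hL
    (Subgroup.mem_top _) hℓ hℓS (fun hc => hℓS (hS ℓ hℓ hc)) hℓE
  obtain ⟨φ, hφ0, hφp, hφ⟩ := exists_eigvec hinj (isLocalizer_locOp S abar ⊤) hP
    (hpar ℂ) θ hθ
  let a : ℕ → ℂ := fun q => if h : q.Prime ∧ q ∉ S then θ (X (Sum.inr ⟨q, h⟩)) else 0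
  have hdia : ∀ u, diamond L ⊤ ℂ u φ = (((1 : (ZMod L)ˣ →* ℂˣ) u : ℂˣ) : ℂ) • φ := fun u => by
    rw [diamond_top ℂ u φ, MonoidHom.one_apply, Units.val_one, one_smul]
  have hT : ∀ (q : ℕ) [Fact q.Prime], q ∉ S → hecke L ⊤ q ℂ φ = a q • φ := fun q hq hqS => by
    simp only [a, dif_pos (⟨hq.out, hqS⟩ : q.Prime ∧ q ∉ S)]
    rw [← hφ]
    exact (LinearMap.congr_fun (opC_inr (K := (⊤ : Subgroup (ZMod L)ˣ)) ⟨q, hq.out, hqS⟩) φ).symm
  -- its eigenform, with trivial character
  obtain ⟨f, lam, hf, hf1, hseq, -, hla⟩ := exists_eigenForm (Subgroup.mem_top _) hφp hφ0 hdia hT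
  have hone : toDir (1 : (ZMod L)ˣ →* ℂˣ) = 1 := MulChar.ext fun u => by
    rw [toDir_coe, MonoidHom.one_apply, Units.val_one, MulChar.one_apply_coe]
  obtain ⟨G, hG, hGf⟩ := exists_twist_eigenForm hL (e := 0)
    (show toDir (1 : (ZMod L)ˣ →* ℂˣ) ^ (2 * 0 + 1) = 1 by rw [hone, one_pow]) hf hf1 hseq
  have hbad : badPrimes (toDir (1 : (ZMod L)ˣ →* ℂˣ)) = ∅ := by
    refine Finset.eq_empty_of_forall_notMem fun v hv => ?_
    obtain ⟨-, -, u, -, hu⟩ := mem_badPrimes.1 hv
    rw [toDir_coe, MonoidHom.one_apply, Units.val_one] at hu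
    exact hu rfl
  -- reduce the eigenvalues compatibly with `O`
  obtain ⟨red, hred⟩ := exists_red O hinj
  let incl : integralClosure ℤ ℂ →+* integralClosure O ℂ :=
    (integralClosure ℤ ℂ).val.toRingHom.codRestrict _ fun z => (z.2).tower_top
  have hcoef : ∀ q : ℕ, q.Prime → q ∉ S → ∀ z : integralClosure ℤ ℂ,
      (z : ℂ) = qCoeff G q → red (incl z) = algebraMap _ _ (abar q) := fun q hq hqS z hz => by
    have hfq : qCoeff f q = a q := by
      have h := hseq q hq 1
      rw [if_neg hq.not_dvd_one, hf1, one_mul, add_zero, mul_one, hla q hq hqS] at h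
      exact h
    rw [hGf, etaSeq, hbad, Finset.prod_empty, one_mul, hfq] at hz
    simp only [a, dif_pos (⟨hq, hqS⟩ : q.Prime ∧ q ∉ S)] at hz
    rw [red_character (isLocalizer_locOp S abar ⊤) θ hθ hred (X (Sum.inr ⟨q, hq, hqS⟩))
      (z := incl z) hz, opRes_inr]
  have hlev : twistLevel (toDir (1 : (ZMod L)ˣ →* ℂˣ)) = L := by
    rw [twistLevel, hbad, Finset.prod_empty, mul_one]
  suffices ∀ N : ℕ, N = L → ∀ F : CuspForm (Gamma0 N) 2, F.IsNormalizedEigenform →
      (∀ q : ℕ, q.Prime → q ∉ S → ∀ z : integralClosure ℤ ℂ,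
        (z : ℂ) = qCoeff F q → red (incl z) = algebraMap _ _ (abar q)) →
      IsCongruentLevel S abar L from this _ hlev G hG hcoef
  rintro N rfl F hF h
  exact ⟨F, hF, red.comp incl, fun q hq hqS z hz => h q hq hqS z hz⟩

variable {p : ℕ} [Fact p.Prime] [CharP (ResidueField O) p]

/-- An eigen homomorphism on `Γ_H` with the residual system makes `L` a congruent level. -/
theorem isCongruentLevel_of_eigen [Algebra O ℂ] (hp2 : p ≠ 2) {K : Subgroup (ZMod L)ˣ}
    (hΔ : IsPGroup p ((ZMod L)ˣ ⧸ K)) (hL : Squarefree L)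
    (hS : ∀ v : ℕ, v.Prime → v ∣ L → v ∈ S)
    (hEis : ∃ ℓ : ℕ, ℓ.Prime ∧ ℓ ∉ S ∧ abar ℓ ≠ 1 + (ℓ : ResidueField O))
    (hell : EllOK S abar) {φ : HomC K} (hφ0 : φ ≠ 0) (θ : OpRing O L S →ₐ[O] ℂ)
    (hφ : ∀ a, opC O S K a φ = θ a • φ)
    {red : integralClosure O ℂ →+* AlgebraicClosure (ResidueField O)}
    (hθ : ∀ a, ∃ z : integralClosure O ℂ, (z : ℂ) = θ a ∧
      red z = algebraMap _ _ (opRes S abar L a)) :
    IsCongruentLevel S abar L := by
  classical
  refine isCongruentLevel_of_ne_bot hL hS hEis fun hbot => ?_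
  set e := locOp S abar K
  have he := isLocalizer_locOp S abar K
  have he₀ := isLocalizer_locOp_top S abar K
  rw [locHom_eq he₀] at hbot
  let := Fintype.ofFinite ((ZMod L)ˣ ⧸ K)
  have hK : ∀ u, u ∈ K ↔ QuotientGroup.mk' K u = 1 := fun u =>
    (QuotientGroup.eq_one_iff (N := K) u).symm
  obtain ⟨b, hb⟩ := exists_freeBasisData (Δ := (ZMod L)ˣ ⧸ K) (ψ := QuotientGroup.mk' K)
    (K := K) S abar hp2 hΔ
    (QuotientGroup.mk'_surjective K)
    hK hS hEis hell he he₀
  have hd : Module.finrank O (localPart O e (HomMod O S (⊤ : Subgroup (ZMod L)ˣ) O)) = 0 := by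
    rw [hbot, finrank_bot]
  have he0 : ∀ x : HomMod O S K O, e • x = 0 := fun x => by
    have : IsEmpty (Fin (Module.finrank O
        (localPart O e (HomMod O S (⊤ : Subgroup (ZMod L)ˣ) O)))) := by
      rw [hd]; infer_instance
    obtain ⟨c, hc⟩ := hb.2 ⟨e • x, he.idem x⟩
    have hc' := congrArg Subtype.val hc
    rw [Subsingleton.elim c 0] at hc'
    simpa using hc'.symm
  have hθe : θ e = 0 := by
    have h := hφ e
    rw [opC_eq_zero_of_forall he0] at h
    exact (smul_eq_zero.1 h.symm).resolve_right hφ0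
  obtain ⟨z, hz, hred⟩ := hθ e
  have hz0 : z = 0 := Subtype.ext (hz.trans hθe)
  have h1 : opRes S abar L e = 1 := by
    have := he.sub_one_mem
    rwa [mem_resIdeal, map_sub, map_one, sub_eq_zero] at this
  rw [hz0, h1, map_zero, map_one] at hred
  exact zero_ne_one hred

end Fermat.Agent.RT.Modules
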